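/-
S56 / EC-LAT, task LAT-13 (sub-architect helper283).  Proof: helper138 (polynomial variant of the density argument:
the polynomial `det π(generic matrix)` over `ℤ` does not vanish at the real point `X`, hence at some integral point).
Helper lemmas: this file, namespace `Fermat.Agent.S56.EC.Lat.NDMatrix`.

**Noether-Deuring by density.**  `G₁, G₂` integral matrices with `G_i ^ m = 1`, intertwined by an invertible REAL
matrix.  Then they are intertwined by an integral matrix of non-zero determinant.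
Sketch.  Over any commutative ring put `π(Y) = ∑ k ∈ range m, G₂ ^ k * Y * G₁ ^ (m - k)`.
(a) `G₂ * π(Y) = π(Y) * G₁` (shift the index: `Finset.sum_range_succ'`/`Finset.sum_range_succ`, `G₂ ^ m = 1`, `G₁ ^ m = 1`;
    easiest: prove `π(Y) * G₁ = Y * G₁ + ∑ k ∈ range (m-1), G₂^(k+1) * Y * G₁^(m-k)`... or write `m = m' + 1`).
(b) over `ℝ`: `π(X) = m • X` because `G₂ ^ k * X = X * G₁ ^ k`; so `det π(X) = m ^ n * det X ≠ 0`.
(c) `Y ↦ det (π_ℝ Y)` is continuous (`Continuous.matrix_det`, `continuous_finset_sum`, `Continuous.matrix_mul`), so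
    `{Y | det (π_ℝ Y) ≠ 0}` is an open neighbourhood of `X`; the matrices with rational entries are dense
    (`Rat.denseRange_cast`, `DenseRange.piMap` twice or `dense_pi`); get `Y₀ : Matrix n n ℚ` with `det π_ℝ(Y₀) ≠ 0`.
(d) clear denominators: `N • Y₀ = Y₁.map (↑)`, `Y₁ : Matrix n n ℤ`, `N ≠ 0` (product of the denominators);
    `π` is linear, `det` is homogeneous, `π`, `det` commute with the cast `ℤ → ℝ` (`Matrix.map_mul`, `RingHom.map_det`,
    `Int.cast_injective`).  `Y := π_ℤ(Y₁)`.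
-/
import Mathlib

set_option autoImplicit false

namespace Fermat.Agent.S56.EC.Lat

namespace NDMatrix

variable {n : Type*} [Fintype n] [DecidableEq n] {R S : Type*} [CommRing R] [CommRing S]

/-- the averaging operator `π(Y) = ∑ k ∈ range m, B ^ k * Y * A ^ (m - k)` -/
def avg (m : ℕ) (A B Y : Matrix n n R) : Matrix n n R :=
  ∑ k ∈ Finset.range m, B ^ k * Y * A ^ (m - k)

theorem map_avg (φ : R →+* S) (m : ℕ) (A B Y : Matrix n n R) :
    φ.mapMatrix (avg m A B Y) = avg m (φ.mapMatrix A) (φ.mapMatrix B) (φ.mapMatrix Y) := by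
  simp only [avg, map_sum, map_mul, map_pow]

theorem avg_mul (m : ℕ) (A B Y : Matrix n n R) (hA : A ^ m = 1) (hB : B ^ m = 1) :
    avg m A B Y * A = B * avg m A B Y := by
  have h1 : avg m A B Y * A = ∑ k ∈ Finset.range m, B ^ k * Y * A ^ (m + 1 - k) := by
    rw [avg, Finset.sum_mul]
    refine Finset.sum_congr rfl fun k hk => ?_
    have hk' : m + 1 - k = (m - k) + 1 := by
      have := Finset.mem_range.1 hk
      omega
    rw [hk', pow_succ, mul_assoc]
  have h2 : B * avg m A B Y = ∑ k ∈ Finset.range m, B ^ (k + 1) * Y * A ^ (m + 1 - (k + 1)) := by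
    rw [avg, Finset.mul_sum]
    refine Finset.sum_congr rfl fun k _ => ?_
    rw [Nat.add_sub_add_right, pow_succ', mul_assoc, mul_assoc, mul_assoc]
  have h3 := Finset.sum_range_succ (fun k => B ^ k * Y * A ^ (m + 1 - k)) m
  have h4 := Finset.sum_range_succ' (fun k => B ^ k * Y * A ^ (m + 1 - k)) m
  rw [h3] at h4
  have h5 : B ^ m * Y * A ^ (m + 1 - m) = B ^ 0 * Y * A ^ (m + 1 - 0) := by
    rw [hB, Nat.add_sub_cancel_left, pow_zero, Nat.sub_zero, pow_succ A m, hA, pow_one, one_mul,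
      one_mul]
  rw [h5] at h4
  rw [h1, h2]
  exact add_right_cancel h4

theorem mul_pow_comm (A B X : Matrix n n R) (h : X * A = B * X) (k : ℕ) :
    X * A ^ k = B ^ k * X := by
  induction k with
  | zero => rw [pow_zero, pow_zero, mul_one, one_mul]
  | succ k ih => rw [pow_succ, ← mul_assoc, ih, mul_assoc, h, ← mul_assoc, ← pow_succ]

theorem avg_of_comm (m : ℕ) (A B X : Matrix n n R) (hA : A ^ m = 1) (h : X * A = B * X) :
    avg m A B X = m • X := by
  have h1 : ∀ k ∈ Finset.range m, B ^ k * X * A ^ (m - k) = X := by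
    intro k hk
    have hk' : k + (m - k) = m := by
      have := Finset.mem_range.1 hk
      omega
    rw [← mul_pow_comm A B X h k, mul_assoc, ← pow_add, hk', hA, mul_one]
  rw [avg, Finset.sum_congr rfl h1, Finset.sum_const, Finset.card_range]

/-- the generic matrix -/
noncomputable def gen (n : Type*) : Matrix n n (MvPolynomial (n × n) ℤ) :=
  Matrix.of fun i j => MvPolynomial.X (i, j)

/-- the determinant of the average of the generic matrix -/
noncomputable def poly (m : ℕ) (G₁ G₂ : Matrix n n ℤ) : MvPolynomial (n × n) ℤ :=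
  (avg m ((MvPolynomial.C : ℤ →+* MvPolynomial (n × n) ℤ).mapMatrix G₁)
    ((MvPolynomial.C : ℤ →+* MvPolynomial (n × n) ℤ).mapMatrix G₂) (gen n)).det

theorem map_poly (ψ : MvPolynomial (n × n) ℤ →+* S) (m : ℕ) (G₁ G₂ : Matrix n n ℤ) :
    ψ (poly m G₁ G₂) = (avg m ((Int.castRingHom S).mapMatrix G₁) ((Int.castRingHom S).mapMatrix G₂)
      (Matrix.of fun i j => ψ (MvPolynomial.X (i, j)))).det := by
  have hC : ∀ G : Matrix n n ℤ,
      ψ.mapMatrix ((MvPolynomial.C : ℤ →+* MvPolynomial (n × n) ℤ).mapMatrix G) =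
        (Int.castRingHom S).mapMatrix G := by
    intro G
    ext i j
    show ψ (MvPolynomial.C (G i j)) = ((G i j : ℤ) : S)
    have : ψ.comp (MvPolynomial.C : ℤ →+* MvPolynomial (n × n) ℤ) = Int.castRingHom S :=
      Subsingleton.elim _ _
    exact DFunLike.congr_fun this (G i j)
  rw [poly, RingHom.map_det, map_avg, hC, hC]
  rfl

end NDMatrix

open NDMatrix in
theorem nd_matrix {n : Type*} [Fintype n] [DecidableEq n] {m : ℕ} (hm : 0 < m)
    (G₁ G₂ : Matrix n n ℤ) (h₁ : G₁ ^ m = 1) (h₂ : G₂ ^ m = 1) (X : Matrix n n ℝ) (hX : X.det ≠ 0)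
    (h : X * G₁.map (Int.cast : ℤ → ℝ) = G₂.map (Int.cast : ℤ → ℝ) * X) :
    ∃ Y : Matrix n n ℤ, Y.det ≠ 0 ∧ Y * G₁ = G₂ * Y := by
  by_contra hno
  push Not at hno
  -- the polynomial vanishes at all integral points
  have hzero : poly m G₁ G₂ = 0 := by
    apply MvPolynomial.funext
    intro y
    rw [map_zero, map_poly (MvPolynomial.eval y) m G₁ G₂]
    have hid : ∀ G : Matrix n n ℤ, (Int.castRingHom ℤ).mapMatrix G = G := by
      intro G
      ext i j
      rfl
    rw [hid, hid]
    by_contra hdet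
    exact hno _ hdet (avg_mul m G₁ G₂ _ h₁ h₂)
  -- but not at `X`
  have h3 := map_poly (MvPolynomial.eval₂Hom (Int.castRingHom ℝ) fun ij : n × n => X ij.1 ij.2)
    m G₁ G₂
  rw [hzero, map_zero] at h3
  have hXgen : (Matrix.of fun i j => MvPolynomial.eval₂Hom (Int.castRingHom ℝ)
      (fun ij : n × n => X ij.1 ij.2) (MvPolynomial.X (i, j))) = X := by
    ext i j
    simp
  have hA : ((Int.castRingHom ℝ).mapMatrix G₁) ^ m = 1 := by rw [← map_pow, h₁, map_one]
  have h' : X * (Int.castRingHom ℝ).mapMatrix G₁ = (Int.castRingHom ℝ).mapMatrix G₂ * X := h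
  rw [hXgen, avg_of_comm m _ _ X hA h', ← Nat.cast_smul_eq_nsmul ℝ, Matrix.det_smul] at h3
  have h4 : ((m : ℝ) ^ Fintype.card n) ≠ 0 := pow_ne_zero _ (Nat.cast_ne_zero.2 hm.ne')
  exact mul_ne_zero h4 hX h3.symm

end Fermat.Agent.S56.EC.Lat
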