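/-
S56 / EC-LAT, task LAT-11 (sub-architect helper283).  
Helper lemmas: this file, namespace `Fermat.Agent.S56.EC.Lat.XLin`.

Modules over `ℤ[X]`: the operator `xEnd A = (X • ·)`; additive maps / subgroups compatible with `X` are
`ℤ[X]`-linear maps / submodules.
Sketch.  `smul_eq_pol`: `Polynomial.induction_on` (as in `map_pol`, `Pair.lean`).  Then
`f (P • x) = f (pol (xEnd A) P x) = pol (xEnd B) P (f x) = P • f x` by `map_pol`.  For the subgroup: induction on `P`.
-/
import Fermat.Agent.S56.EC.Lat.Pair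

set_option autoImplicit false

namespace Fermat.Agent.S56.EC.Lat

open Polynomial

variable {A B : Type*} [AddCommGroup A] [Module ℤ[X] A] [AddCommGroup B] [Module ℤ[X] B]

/-- The operator `X • ·`. -/
noncomputable def xEnd (A : Type*) [AddCommGroup A] [Module ℤ[X] A] : Module.End ℤ A :=
  (LinearMap.lsmul ℤ[X] A X).restrictScalars ℤ

@[simp] theorem xEnd_apply (x : A) : xEnd A x = (X : ℤ[X]) • x := rfl

theorem XLin.C_smul (a : ℤ) (x : A) : (C a : ℤ[X]) • x = a • x := by
  rw [show (C a : ℤ[X]) = (a : ℤ[X]) from eq_intCast C a]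
  exact Int.cast_smul_eq_zsmul ℤ[X] a x

theorem smul_eq_pol (P : ℤ[X]) (x : A) : P • x = pol (xEnd A) P x := by
  unfold pol
  induction P using Polynomial.induction_on generalizing x with
  | C a =>
    rw [Polynomial.aeval_C, Module.algebraMap_end_apply, XLin.C_smul]
  | add P Q hP hQ =>
    rw [add_smul, map_add, LinearMap.add_apply, hP, hQ]
  | monomial n a ih =>
    rw [pow_succ, ← mul_assoc, mul_smul, map_mul, Polynomial.aeval_X, Module.End.mul_apply,
      xEnd_apply, ih]

theorem xEnd_pow_eq_one {m : ℕ} (hz : ZKilled ((X : ℤ[X]) ^ m - 1) A) : xEnd A ^ m = 1 := by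
  ext x
  have h := hz x
  rw [smul_eq_pol, pol, map_sub, map_pow, Polynomial.aeval_X, map_one, LinearMap.sub_apply,
    sub_eq_zero] at h
  exact h

theorem exists_linearMap_of_X (f : A →+ B) (hf : ∀ x, f ((X : ℤ[X]) • x) = (X : ℤ[X]) • f x) :
    ∃ F : A →ₗ[ℤ[X]] B, ∀ x, F x = f x := by
  refine ⟨{ toFun := f
            map_add' := map_add f
            map_smul' := fun P x => ?_ }, fun x => rfl⟩
  rw [smul_eq_pol, map_pol (g := xEnd A) (h := xEnd B) f hf, ← smul_eq_pol]
  rfl

theorem exists_submodule_of_X (N : AddSubgroup A) (hN : ∀ x ∈ N, (X : ℤ[X]) • x ∈ N) :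
    ∃ N' : Submodule ℤ[X] A, ∀ x, x ∈ N' ↔ x ∈ N := by
  have key : ∀ (P : ℤ[X]) (x : A), x ∈ N → P • x ∈ N := by
    intro P
    induction P using Polynomial.induction_on with
    | C a =>
      intro x hx
      rw [XLin.C_smul]
      exact N.zsmul_mem hx a
    | add P Q hP hQ =>
      intro x hx
      rw [add_smul]
      exact N.add_mem (hP x hx) (hQ x hx)
    | monomial n a ih =>
      intro x hx
      rw [pow_succ, ← mul_assoc, mul_smul]
      exact ih _ (hN x hx)
  exact ⟨{ carrier := N
           add_mem' := N.add_mem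
           zero_mem' := N.zero_mem
           smul_mem' := fun P x hx => key P x hx }, fun x => Iff.rfl⟩

end Fermat.Agent.S56.EC.Lat
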