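/-
S56 / EC-LAT, task LAT-15 (sub-architect helper283).

From an integral intertwining matrix of non-zero determinant to an injective `ℤ[X]`-linear map with finite cokernel.
-/
import Fermat.Agent.S56.EC.Lat.XLin

set_option autoImplicit false

namespace Fermat.Agent.S56.EC.Lat

open Polynomial

variable {L₁ L₂ : Type*} [AddCommGroup L₁] [Module ℤ[X] L₁] [AddCommGroup L₂] [Module ℤ[X] L₂]

theorem exists_linearMap_of_matrix {n : Type*} [Fintype n] [DecidableEq n]
    (b₁ : Module.Basis n ℤ L₁) (b₂ : Module.Basis n ℤ L₂) (Y : Matrix n n ℤ) (hY : Y.det ≠ 0)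
    (h : Y * LinearMap.toMatrix b₁ b₁ (xEnd L₁) = LinearMap.toMatrix b₂ b₂ (xEnd L₂) * Y) :
    ∃ f : L₁ →ₗ[ℤ[X]] L₂, Function.Injective f ∧ Finite (L₂ ⧸ LinearMap.range f) := by
  set f₀ : L₁ →ₗ[ℤ] L₂ := Matrix.toLin b₁ b₂ Y with hf₀
  -- `f₀` commutes with `X`
  have hcomm : f₀ ∘ₗ xEnd L₁ = xEnd L₂ ∘ₗ f₀ := by
    have h1 := congrArg (Matrix.toLin b₁ b₂) h
    rwa [Matrix.toLin_mul b₁ b₁ b₂, Matrix.toLin_mul b₁ b₂ b₂, Matrix.toLin_toMatrix,
      Matrix.toLin_toMatrix] at h1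
  obtain ⟨F, hF⟩ := exists_linearMap_of_X f₀.toAddMonoidHom (fun x => LinearMap.congr_fun hcomm x)
  have hF' : ∀ x, F x = f₀ x := hF
  -- injectivity
  have hinj₀ : Function.Injective f₀ := by
    rw [injective_iff_map_eq_zero]
    intro x hx
    have h1 := LinearMap.toMatrix_mulVec_repr b₁ b₂ f₀ x
    rw [hf₀, LinearMap.toMatrix_toLin, ← hf₀, hx, map_zero] at h1
    have h2 : (b₁.repr x : n → ℤ) = 0 := Matrix.eq_zero_of_mulVec_eq_zero hY h1
    have h3 : b₁.repr x = 0 := DFunLike.coe_injective h2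
    exact (LinearEquiv.map_eq_zero_iff _).1 h3
  refine ⟨F, fun x y hxy => hinj₀ (by rw [← hF', ← hF', hxy]), ?_⟩
  -- finiteness of the cokernel
  have : Module.Free ℤ L₂ := Module.Free.of_basis b₂
  have : Module.Finite ℤ L₂ := Module.Finite.of_basis b₂
  have hrank : Module.finrank ℤ (LinearMap.range f₀) = Module.finrank ℤ L₂ := by
    rw [LinearMap.finrank_range_of_inj hinj₀, Module.finrank_eq_card_basis b₁,
      Module.finrank_eq_card_basis b₂]
  have hfin : Finite (L₂ ⧸ LinearMap.range f₀) :=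
    Submodule.finiteQuotientOfFreeOfRankEq _ hrank
  let g : L₂ →ₗ[ℤ] L₂ ⧸ LinearMap.range F := (LinearMap.range F).mkQ.toAddMonoidHom.toIntLinearMap
  have hg : LinearMap.range f₀ ≤ LinearMap.ker g := by
    rintro _ ⟨x, rfl⟩
    rw [LinearMap.mem_ker]
    change (LinearMap.range F).mkQ (f₀ x) = 0
    rw [Submodule.mkQ_apply, Submodule.Quotient.mk_eq_zero]
    exact ⟨x, hF' x⟩
  refine Finite.of_surjective ((LinearMap.range f₀).liftQ g hg) ?_
  intro y
  obtain ⟨x, rfl⟩ := (LinearMap.range F).mkQ_surjective y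
  exact ⟨Submodule.Quotient.mk x, rfl⟩

end Fermat.Agent.S56.EC.Lat
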