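/-
S56 / EC-LAT, task LAT-14 (sub-architect helper283, proofs helper131).
Helper lemmas: this file, namespace `Fermat.Agent.S56.EC.Lat.NDReal`.

Two lattices with operators, mapped equivariantly onto spanning sets of the same real vector space: the real
intertwining matrix.
Sketch.  `β_i := φ_i ∘ b_i` spans `V` (`span ℝ (range φ_i) ≤ span ℝ (range β_i)`: every `x = ∑ (b_i.repr x j) • b_i j`, so
`φ_i x = ∑ (..: ℤ) • β_i j`) and has `card n = finrank ℝ V` elements, so it is a basis: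
`basisOfTopLeSpanOfCardEqFinrank`.  In the basis `β_i` the matrix of `γ` is `G_i.map (↑)`
(`γ (β_i j) = φ_i (X • b_i j) = ∑ k, (G_i k j : ℤ) • β_i k`; `LinearMap.toMatrix_apply`, `Basis.sum_repr`).
`X := β₂.toMatrix β₁` (columns = coordinates of `β₁ j` in `β₂`); invertible (`Basis.invertibleToMatrix`,
`Matrix.det_ne_zero_of_left_inverse` with `Basis.toMatrix_mul_toMatrix_flip`);
`X * [γ]_{β₁} = [γ]_{β₂} * X` (`basis_toMatrix_mul_linearMap_toMatrix`, `linearMap_toMatrix_mul_basis_toMatrix`).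
-/
import Fermat.Agent.S56.EC.Lat.XLin

set_option autoImplicit false

namespace Fermat.Agent.S56.EC.Lat

open Polynomial

namespace NDReal

variable {L V : Type*} [AddCommGroup L] [Module ℤ[X] L] [AddCommGroup V] [Module ℝ V]

/-- One lattice: the image of the `ℤ`-basis is a real basis, in which `γ` has the integral matrix. -/
theorem exists_basis {n : Type*} [Fintype n] [DecidableEq n]
    (b : Module.Basis n ℤ L) (hn : Fintype.card n = Module.finrank ℝ V)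
    (γ : V →ₗ[ℝ] V) (φ : L →+ V) (h : ∀ x, φ ((X : ℤ[X]) • x) = γ (φ x))
    (s : Submodule.span ℝ (Set.range φ) = ⊤) :
    ∃ β : Module.Basis n ℝ V,
      LinearMap.toMatrix β β γ = (LinearMap.toMatrix b b (xEnd L)).map (Int.cast : ℤ → ℝ) := by
  have hφ : ∀ x : L, φ x = ∑ j, ((b.repr x j : ℤ) : ℝ) • φ (b j) := by
    intro x
    conv_lhs => rw [← b.sum_repr x]
    rw [map_sum]
    refine Finset.sum_congr rfl fun j _ => ?_
    rw [map_zsmul, Int.cast_smul_eq_zsmul]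
  have hspan : ⊤ ≤ Submodule.span ℝ (Set.range fun j => φ (b j)) := by
    rw [← s, Submodule.span_le]
    rintro _ ⟨x, rfl⟩
    rw [hφ]
    exact Submodule.sum_mem _ fun j _ =>
      Submodule.smul_mem _ _ (Submodule.subset_span ⟨j, rfl⟩)
  refine ⟨basisOfTopLeSpanOfCardEqFinrank (fun j => φ (b j)) hspan hn, ?_⟩
  set β := basisOfTopLeSpanOfCardEqFinrank (fun j => φ (b j)) hspan hn with hβ
  have hβj : ∀ j, β j = φ (b j) := fun j => by
    rw [hβ, coe_basisOfTopLeSpanOfCardEqFinrank]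
  ext i j
  rw [LinearMap.toMatrix_apply, Matrix.map_apply, LinearMap.toMatrix_apply, xEnd_apply, hβj, ← h,
    hφ]
  have e : ∑ k, ((b.repr ((X : ℤ[X]) • b j) k : ℤ) : ℝ) • φ (b k) =
      ∑ k, ((b.repr ((X : ℤ[X]) • b j) k : ℤ) : ℝ) • β k :=
    Finset.sum_congr rfl fun k _ => by rw [hβj]
  rw [e, β.repr_sum_self]

end NDReal

variable {L₁ L₂ V : Type*} [AddCommGroup L₁] [Module ℤ[X] L₁] [AddCommGroup L₂] [Module ℤ[X] L₂]
  [AddCommGroup V] [Module ℝ V] [FiniteDimensional ℝ V]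

theorem exists_real_intertwiner {n : Type*} [Fintype n] [DecidableEq n]
    (b₁ : Module.Basis n ℤ L₁) (b₂ : Module.Basis n ℤ L₂) (hn : Fintype.card n = Module.finrank ℝ V)
    (γ : V →ₗ[ℝ] V) (φ₁ : L₁ →+ V) (φ₂ : L₂ →+ V)
    (h₁ : ∀ x, φ₁ ((X : ℤ[X]) • x) = γ (φ₁ x)) (h₂ : ∀ x, φ₂ ((X : ℤ[X]) • x) = γ (φ₂ x))
    (s₁ : Submodule.span ℝ (Set.range φ₁) = ⊤) (s₂ : Submodule.span ℝ (Set.range φ₂) = ⊤) :
    ∃ Y : Matrix n n ℝ, Y.det ≠ 0 ∧
      Y * (LinearMap.toMatrix b₁ b₁ (xEnd L₁)).map (Int.cast : ℤ → ℝ) =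
        (LinearMap.toMatrix b₂ b₂ (xEnd L₂)).map (Int.cast : ℤ → ℝ) * Y := by
  obtain ⟨β₁, e₁⟩ := NDReal.exists_basis b₁ hn γ φ₁ h₁ s₁
  obtain ⟨β₂, e₂⟩ := NDReal.exists_basis b₂ hn γ φ₂ h₂ s₂
  refine ⟨β₂.toMatrix β₁, Matrix.det_ne_zero_of_left_inverse (β₁.toMatrix_mul_toMatrix_flip β₂), ?_⟩
  rw [← e₁, ← e₂, basis_toMatrix_mul_linearMap_toMatrix, linearMap_toMatrix_mul_basis_toMatrix]

end Fermat.Agent.S56.EC.Lat
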