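/-
S56 / EC-LAT, task LAT-16 (sub-architect helper283).  Proved by helper282.

**Noether-Deuring for lattices** (assembly).  `n := Fin (finrank ℝ V)`; bases `Module.finBasisOfFinrankEq ℤ L_i r_i`;
`exists_real_intertwiner`; `nd_matrix` with `G_i := toMatrix b_i b_i (xEnd L_i)`, `G_i ^ m = 1` from `xEnd_pow_eq_one`
(`LinearMap.toMatrix_pow`/`map_pow` of `LinearMap.toMatrixAlgEquiv`, `LinearMap.toMatrix_one`);
`exists_linearMap_of_matrix`.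
-/
import Fermat.Agent.S56.EC.Lat.NDMatrix
import Fermat.Agent.S56.EC.Lat.NDReal
import Fermat.Agent.S56.EC.Lat.NDOfMatrix

set_option autoImplicit false

namespace Fermat.Agent.S56.EC.Lat

open Polynomial

variable {L₁ L₂ V : Type*} [AddCommGroup L₁] [Module ℤ[X] L₁] [AddCommGroup L₂] [Module ℤ[X] L₂]
  [AddCommGroup V] [Module ℝ V] [FiniteDimensional ℝ V]

theorem nd_lattice {m : ℕ} (hm : 0 < m) [Module.Free ℤ L₁] [Module.Finite ℤ L₁] [Module.Free ℤ L₂]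
    [Module.Finite ℤ L₂] (hz₁ : ZKilled ((X : ℤ[X]) ^ m - 1) L₁)
    (hz₂ : ZKilled ((X : ℤ[X]) ^ m - 1) L₂) (γ : V →ₗ[ℝ] V) (φ₁ : L₁ →+ V) (φ₂ : L₂ →+ V)
    (h₁ : ∀ x, φ₁ ((X : ℤ[X]) • x) = γ (φ₁ x)) (h₂ : ∀ x, φ₂ ((X : ℤ[X]) • x) = γ (φ₂ x))
    (r₁ : Module.finrank ℤ L₁ = Module.finrank ℝ V) (r₂ : Module.finrank ℤ L₂ = Module.finrank ℝ V)
    (s₁ : Submodule.span ℝ (Set.range φ₁) = ⊤) (s₂ : Submodule.span ℝ (Set.range φ₂) = ⊤) :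
    ∃ f : L₁ →ₗ[ℤ[X]] L₂, Function.Injective f ∧ Finite (L₂ ⧸ LinearMap.range f) := by
  classical
  let b₁ := Module.finBasisOfFinrankEq ℤ L₁ r₁
  let b₂ := Module.finBasisOfFinrankEq ℤ L₂ r₂
  obtain ⟨Y, hY, hYc⟩ := exists_real_intertwiner b₁ b₂ (Fintype.card_fin _) γ φ₁ φ₂ h₁ h₂ s₁ s₂
  have g₁ : (LinearMap.toMatrix b₁ b₁ (xEnd L₁)) ^ m = 1 := by
    rw [LinearMap.toMatrix_pow, xEnd_pow_eq_one hz₁, LinearMap.toMatrix_one]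
  have g₂ : (LinearMap.toMatrix b₂ b₂ (xEnd L₂)) ^ m = 1 := by
    rw [LinearMap.toMatrix_pow, xEnd_pow_eq_one hz₂, LinearMap.toMatrix_one]
  obtain ⟨Z, hZ, hZc⟩ := nd_matrix hm _ _ g₁ g₂ Y hY hYc
  exact exists_linearMap_of_matrix b₁ b₂ Z hZ hZc

end Fermat.Agent.S56.EC.Lat
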