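/-
S56 (Taylor-Wiles primes), block EC-LAT (sub-architect helper283).  DEFINITIONS.  FROZEN INTERFACE.

`R` a commutative ring, `p` a prime number, `z e : R` with `e * e - e ∈ (p, z)`; all modules are killed
by `z`.  (Application: `R = ℤ[X]`, `z = X ^ m - 1`, `e = P`, and `X` acts on the abelian group `A` through
an automorphism `g` with `g ^ m = 1`.)

* `mulP R p A`   : multiplication by `p`, as an `R`-linear endomorphism of `A`;
* `ePart e A`    : the submodule `e A`;
* `ModP R p A`   : `A / p A`;      `TorP R p A` : `A[p]`;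
* `cq p e A`     : the number of elements of `e (A / p A)`;
* `ck p e A`     : the number of elements of `e (A[p])`;
* `modPMap p f`  : the map `A / p → B / p` induced by `f`.
-/
import Mathlib

set_option autoImplicit false

namespace Fermat.Agent.S56.EC.Lat

variable (R : Type*) [CommRing R]

/-- Multiplication by `p`. -/
def mulP (p : ℕ) (A : Type*) [AddCommGroup A] [Module R A] : A →ₗ[R] A :=
  LinearMap.lsmul R A (p : R)

variable {R}

@[simp] theorem mulP_apply (p : ℕ) {A : Type*} [AddCommGroup A] [Module R A] (x : A) :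
    mulP R p A x = p • x := by
  show (p : R) • x = p • x
  exact Nat.cast_smul_eq_nsmul R p x

/-- The submodule `e A`. -/
def ePart (e : R) (A : Type*) [AddCommGroup A] [Module R A] : Submodule R A :=
  LinearMap.range (LinearMap.lsmul R A e)

theorem mem_ePart {e : R} {A : Type*} [AddCommGroup A] [Module R A] {x : A} :
    x ∈ ePart e A ↔ ∃ y : A, e • y = x := Iff.rfl

/-- `A / p A`. -/
abbrev ModP (R : Type*) [CommRing R] (p : ℕ) (A : Type*) [AddCommGroup A] [Module R A] : Type _ :=
  A ⧸ LinearMap.range (mulP R p A)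

/-- `A[p]`. -/
abbrev TorP (R : Type*) [CommRing R] (p : ℕ) (A : Type*) [AddCommGroup A] [Module R A] :
    Submodule R A :=
  LinearMap.ker (mulP R p A)

/-- `# e (A / p A)`. -/
noncomputable def cq (p : ℕ) (e : R) (A : Type*) [AddCommGroup A] [Module R A] : ℕ :=
  Nat.card (ePart e (ModP R p A))

/-- `# e (A[p])`. -/
noncomputable def ck (p : ℕ) (e : R) (A : Type*) [AddCommGroup A] [Module R A] : ℕ :=
  Nat.card (ePart e (TorP R p A))

/-- `e` is idempotent modulo `(p, z)`. -/
def IsIdemMod (p : ℕ) (z e : R) : Prop := ∃ r s : R, e * e - e = (p : R) * r + z * s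

/-- `A` is killed by `z`. -/
def ZKilled (z : R) (A : Type*) [AddCommGroup A] [Module R A] : Prop := ∀ x : A, z • x = 0

/-- `A` has no `p`-torsion. -/
def NoPTor (p : ℕ) (A : Type*) [AddCommGroup A] : Prop := ∀ x : A, p • x = 0 → x = 0

/-- `A` is killed by `p`. -/
def KilledBy (p : ℕ) (A : Type*) [AddCommGroup A] : Prop := ∀ x : A, p • x = 0

/-- The map induced by `f` on the quotients by `p`. -/
def modPMap (p : ℕ) {A B : Type*} [AddCommGroup A] [Module R A] [AddCommGroup B] [Module R B]
    (f : A →ₗ[R] B) : ModP R p A →ₗ[R] ModP R p B :=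
  Submodule.mapQ _ _ f (by
    rintro _ ⟨x, rfl⟩
    exact ⟨f x, by simp⟩)

@[simp] theorem modPMap_mk (p : ℕ) {A B : Type*} [AddCommGroup A] [Module R A] [AddCommGroup B]
    [Module R B] (f : A →ₗ[R] B) (x : A) :
    modPMap p f (Submodule.Quotient.mk x) = Submodule.Quotient.mk (f x) := rfl

end Fermat.Agent.S56.EC.Lat
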