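/-
S56 / EC-LAT, task LAT-1 (sub-architect helper283).  Proofs: helper204 (task 2790).
Helper lemmas: this file, namespace `Fermat.Agent.S56.EC.Lat.Exact`.

The count of the `e`-part is multiplicative in short exact sequences of finite modules killed by `p`, `z`.
Sketch.  `smul_smul_of_killedBy`: `e • e • x = (e * e) • x = (e + p r + z s) • x`.
`card_ePart_eq_mul`: the linear map `ePart e W → ePart e (W ⧸ N)` induced by `N.mkQ` is surjective; its kernel
is `{x ∈ e W | x ∈ N}`, and such an `x` satisfies `x = e • x`, so the kernel is the image of the injective map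
`ePart e N → ePart e W`.  Count with `Submodule.card_eq_card_quotient_mul_card` + `LinearMap.quotKerEquivRange`
(or `AddSubgroup.card_eq_card_quotient_mul_card_addSubgroup`).
`card_ePart_ker_range`: apply it to `N = ker g` and `card_ePart_congr` to `g.quotKerEquivRange`.
-/
import Fermat.Agent.S56.EC.Lat.Defs

set_option autoImplicit false

namespace Fermat.Agent.S56.EC.Lat

variable {R : Type*} [CommRing R] {p : ℕ} {z e : R}

variable {W W₂ : Type*} [AddCommGroup W] [Module R W] [AddCommGroup W₂] [Module R W₂]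

theorem card_ePart_congr (e : R) (f : W ≃ₗ[R] W₂) :
    Nat.card (ePart e W) = Nat.card (ePart e W₂) := by
  refine Nat.card_congr (Equiv.subtypeEquiv f.toEquiv fun x => ?_)
  constructor
  · rintro ⟨y, rfl⟩
    exact ⟨f y, (map_smul f e y).symm⟩
  · rintro ⟨y, hy⟩
    refine ⟨f.symm y, ?_⟩
    apply f.injective
    change f (e • f.symm y) = f x
    rw [map_smul, LinearEquiv.apply_symm_apply]
    exact hy

theorem smul_smul_of_killedBy (he : IsIdemMod p z e) (hW : KilledBy p W) (hz : ZKilled z W) (x : W) :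
    e • e • x = e • x := by
  obtain ⟨r, s, h⟩ := he
  have h1 : e * e = e + ((p : R) * r + z * s) := by rw [← h]; ring
  rw [smul_smul, h1, add_smul, add_smul, mul_smul, mul_smul, hz, Nat.cast_smul_eq_nsmul, hW, add_zero,
    add_zero]

theorem killedBy_modP (R : Type*) [CommRing R] (p : ℕ) (A : Type*) [AddCommGroup A] [Module R A] :
    KilledBy p (ModP R p A) := by
  intro x
  obtain ⟨a, rfl⟩ := Submodule.Quotient.mk_surjective _ x
  rw [← Submodule.Quotient.mk_smul, Submodule.Quotient.mk_eq_zero]
  exact ⟨a, mulP_apply p a⟩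

theorem killedBy_torP (R : Type*) [CommRing R] (p : ℕ) (A : Type*) [AddCommGroup A] [Module R A] :
    KilledBy p (TorP R p A) := by
  intro x
  apply Subtype.ext
  have h := x.2
  rw [LinearMap.mem_ker, mulP_apply] at h
  simpa using h

theorem ZKilled.submodule (hz : ZKilled z W) (N : Submodule R W) : ZKilled z N := by
  intro x
  apply Subtype.ext
  simpa using hz x.1

theorem ZKilled.quotient (hz : ZKilled z W) (N : Submodule R W) : ZKilled z (W ⧸ N) := by
  intro x
  obtain ⟨a, rfl⟩ := Submodule.Quotient.mk_surjective _ x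
  rw [← Submodule.Quotient.mk_smul, hz, Submodule.Quotient.mk_zero]

theorem card_ePart_eq_mul (he : IsIdemMod p z e) (hW : KilledBy p W) (hz : ZKilled z W) [Finite W]
    (N : Submodule R W) :
    Nat.card (ePart e W) = Nat.card (ePart e N) * Nat.card (ePart e (W ⧸ N)) := by
  set φ : ePart e W →ₗ[R] W ⧸ N := N.mkQ.comp (ePart e W).subtype with hφ
  have hrange : LinearMap.range φ = ePart e (W ⧸ N) := by
    ext y
    constructor
    · rintro ⟨⟨_, x, rfl⟩, rfl⟩
      exact ⟨N.mkQ x, (map_smul N.mkQ e x).symm⟩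
    · rintro ⟨y', rfl⟩
      obtain ⟨x, rfl⟩ := Submodule.Quotient.mk_surjective _ y'
      exact ⟨⟨e • x, x, rfl⟩, rfl⟩
  have hker : Nat.card (LinearMap.ker φ) = Nat.card (ePart e N) := by
    refine Nat.card_congr
      { toFun := fun x => ⟨⟨x.1.1, (Submodule.Quotient.mk_eq_zero N).1 x.2⟩, ?_⟩
        invFun := fun y => ⟨⟨y.1.1, ?_⟩, ?_⟩
        left_inv := fun x => rfl
        right_inv := fun y => rfl }
    · obtain ⟨y, hy⟩ := x.1.2
      refine ⟨⟨x.1.1, (Submodule.Quotient.mk_eq_zero N).1 x.2⟩, ?_⟩
      apply Subtype.ext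
      change e • x.1.1 = x.1.1
      have hy' : e • y = x.1.1 := hy
      rw [← hy', smul_smul_of_killedBy he hW hz]
    · obtain ⟨n, hn⟩ := y.2
      exact ⟨n.1, congrArg Subtype.val hn⟩
    · exact (Submodule.Quotient.mk_eq_zero N).2 y.1.2
  rw [Submodule.card_eq_card_quotient_mul_card (LinearMap.ker φ), hker,
    Nat.card_congr φ.quotKerEquivRange.toEquiv, hrange, mul_comm]

theorem card_ePart_ker_range (he : IsIdemMod p z e) (hW : KilledBy p W) (hz : ZKilled z W) [Finite W]
    (g : W →ₗ[R] W₂) :
    Nat.card (ePart e W) =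
      Nat.card (ePart e (LinearMap.ker g)) * Nat.card (ePart e (LinearMap.range g)) := by
  rw [card_ePart_eq_mul he hW hz (LinearMap.ker g), card_ePart_congr e g.quotKerEquivRange]

end Fermat.Agent.S56.EC.Lat
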