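/-
S56 / EC-LAT, task LAT-6 (sub-architect helper283; proofs helper151).  Statements FROZEN.
Helper lemmas: this file, namespace `Fermat.Agent.S56.EC.Lat.Congr`.

Invariance under isomorphisms, products, finiteness.
Sketch.  `cq_congr`: `Submodule.Quotient.equiv _ _ f h` + `card_ePart_congr`.  `ck_congr`: `f.submoduleMap` /
`LinearEquiv.ofSubmodules` + `card_ePart_congr`.  `cq_prod`: build the bijection
`ePart e (ModP R p (A × A')) ≃ ePart e (ModP R p A) × ePart e (ModP R p A')` (e.g. via the linear equivalence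
`(A × A') ⧸ range ≃ (A ⧸ range) × (A' ⧸ range)`: `Submodule.quotientProdLinearEquiv`-like, or by hand with
`Submodule.liftQ`), `Nat.card_prod`.  `finite_modP`: `ModP` is a finitely generated `ℤ`-module which is torsion
(`Module.finite_of_fg_torsion`), or: image of `(Fin n → ZMod p)`.
-/
import Fermat.Agent.S56.EC.Lat.Exact

set_option autoImplicit false

namespace Fermat.Agent.S56.EC.Lat

variable {R : Type*} [CommRing R] {p : ℕ} {z e : R}

variable {A A' : Type*} [AddCommGroup A] [Module R A] [AddCommGroup A'] [Module R A']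

namespace Congr

/-- `(A × A') / p ≃ A / p × A' / p`. -/
noncomputable def modPProd (R : Type*) [CommRing R] (p : ℕ) (A A' : Type*) [AddCommGroup A]
    [Module R A] [AddCommGroup A'] [Module R A'] :
    ModP R p (A × A') ≃ₗ[R] ModP R p A × ModP R p A' :=
  LinearEquiv.ofLinearMap
    ((modPMap p (LinearMap.fst R A A')).prod (modPMap p (LinearMap.snd R A A')))
    ((modPMap p (LinearMap.inl R A A')).coprod (modPMap p (LinearMap.inr R A A')))
    (by
      apply LinearMap.ext
      rintro ⟨x, y⟩
      obtain ⟨a, rfl⟩ := Submodule.Quotient.mk_surjective _ x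
      obtain ⟨b, rfl⟩ := Submodule.Quotient.mk_surjective _ y
      refine Prod.ext ?_ ?_
      · show modPMap p (LinearMap.fst R A A') (modPMap p (LinearMap.inl R A A')
          (Submodule.Quotient.mk a) + modPMap p (LinearMap.inr R A A')
          (Submodule.Quotient.mk b)) = Submodule.Quotient.mk a
        rw [map_add, modPMap_mk, modPMap_mk, modPMap_mk, modPMap_mk, LinearMap.inl_apply,
          LinearMap.inr_apply, LinearMap.fst_apply, LinearMap.fst_apply,
          Submodule.Quotient.mk_zero, add_zero]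
      · show modPMap p (LinearMap.snd R A A') (modPMap p (LinearMap.inl R A A')
          (Submodule.Quotient.mk a) + modPMap p (LinearMap.inr R A A')
          (Submodule.Quotient.mk b)) = Submodule.Quotient.mk b
        rw [map_add, modPMap_mk, modPMap_mk, modPMap_mk, modPMap_mk, LinearMap.inl_apply,
          LinearMap.inr_apply, LinearMap.snd_apply, LinearMap.snd_apply,
          Submodule.Quotient.mk_zero, zero_add])
    (by
      apply LinearMap.ext
      intro x
      obtain ⟨⟨a, b⟩, rfl⟩ := Submodule.Quotient.mk_surjective _ x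
      show modPMap p (LinearMap.inl R A A') (modPMap p (LinearMap.fst R A A')
          (Submodule.Quotient.mk (a, b))) + modPMap p (LinearMap.inr R A A')
          (modPMap p (LinearMap.snd R A A') (Submodule.Quotient.mk (a, b))) =
          Submodule.Quotient.mk (a, b)
      rw [modPMap_mk, modPMap_mk, modPMap_mk, modPMap_mk, ← Submodule.Quotient.mk_add,
        LinearMap.fst_apply, LinearMap.snd_apply, LinearMap.inl_apply, LinearMap.inr_apply,
        Prod.mk_add_mk, add_zero, zero_add])

theorem card_ePart_prod {R : Type*} [CommRing R] (e : R) (B B' : Type*) [AddCommGroup B]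
    [Module R B] [AddCommGroup B'] [Module R B'] :
    Nat.card (ePart e (B × B')) = Nat.card (ePart e B) * Nat.card (ePart e B') := by
  have h : ((ePart e (B × B') : Submodule R (B × B')) : Set (B × B')) =
      ((ePart e B : Submodule R B) : Set B) ×ˢ ((ePart e B' : Submodule R B') : Set B') := by
    ext ⟨x, y⟩
    simp only [SetLike.mem_coe, Set.mem_prod, mem_ePart]
    constructor
    · rintro ⟨⟨a, b⟩, hab⟩
      rw [Prod.smul_mk, Prod.mk.injEq] at hab
      exact ⟨⟨a, hab.1⟩, ⟨b, hab.2⟩⟩
    · rintro ⟨⟨a, ha⟩, ⟨b, hb⟩⟩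
      exact ⟨(a, b), by rw [Prod.smul_mk, ha, hb]⟩
  rw [← Nat.card_prod]
  exact Nat.card_congr ((Equiv.setCongr h).trans (Equiv.Set.prod _ _))

end Congr

theorem cq_congr (p : ℕ) (e : R) (f : A ≃ₗ[R] A') : cq p e A = cq p e A' := by
  refine card_ePart_congr e (Submodule.Quotient.equiv _ _ f ?_)
  ext y
  constructor
  · rintro ⟨_, ⟨x, rfl⟩, rfl⟩
    exact ⟨f x, by simp⟩
  · rintro ⟨x, rfl⟩
    exact ⟨mulP R p A (f.symm x), ⟨_, rfl⟩, by simp⟩

theorem ck_congr (p : ℕ) (e : R) (f : A ≃ₗ[R] A') : ck p e A = ck p e A' := by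
  refine card_ePart_congr e (LinearEquiv.ofSubmodules f _ _ ?_)
  ext y
  constructor
  · rintro ⟨x, hx, rfl⟩
    have hx' : mulP R p A x = 0 := hx
    show mulP R p A' (f x) = 0
    rw [mulP_apply] at hx' ⊢
    have : f (p • x) = 0 := by rw [hx', map_zero]
    rwa [map_nsmul] at this
  · intro hy
    have hy' : mulP R p A' y = 0 := hy
    refine ⟨f.symm y, ?_, by simp⟩
    show mulP R p A (f.symm y) = 0
    rw [mulP_apply] at hy' ⊢
    rw [← map_nsmul, hy', map_zero]

theorem cq_prod (p : ℕ) (e : R) (A A' : Type*) [AddCommGroup A] [Module R A] [AddCommGroup A']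
    [Module R A'] : cq p e (A × A') = cq p e A * cq p e A' := by
  unfold cq
  rw [card_ePart_congr e (Congr.modPProd R p A A'), Congr.card_ePart_prod]

theorem finite_modP (R : Type*) [CommRing R] {p : ℕ} (hp : p ≠ 0) (A : Type*) [AddCommGroup A]
    [Module R A] [Module.Finite ℤ A] : Finite (ModP R p A) := by
  have hA : AddGroup.FG A := Module.Finite.iff_addGroup_fg.1 inferInstance
  have hfg : AddGroup.FG (ModP R p A) :=
    AddGroup.fg_of_surjective (f := (LinearMap.range (mulP R p A)).mkQ.toAddMonoidHom)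
      (fun x => by
        obtain ⟨a, rfl⟩ := Submodule.Quotient.mk_surjective _ x
        exact ⟨a, rfl⟩)
  refine AddCommGroup.finite_of_fg_isAddTorsion _ ?_
  intro x
  rw [isOfFinAddOrder_iff_nsmul_eq_zero]
  refine ⟨p, Nat.pos_of_ne_zero hp, ?_⟩
  obtain ⟨a, rfl⟩ := Submodule.Quotient.mk_surjective _ x
  rw [← Submodule.Quotient.mk_smul, Submodule.Quotient.mk_eq_zero]
  exact ⟨a, mulP_apply p a⟩

end Fermat.Agent.S56.EC.Lat
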