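/-
S56, block EC-LAT (sub-architect helper283).  PAIRS `(V, g)`: an abelian group with an endomorphism, seen as
a module over `ℤ[X]`.  DEFINITIONS (frozen) + basic API.

* `pol g P`    : the endomorphism `P(g)` of `V`  (`g : Module.End ℤ V`, i.e. `g : V →ₗ[ℤ] V`; an additive map
                 `γ : V →+ V` gives `γ.toIntLinearMap`);
* `Pr g`       : the abelian group `V` with the `ℤ[X]`-module structure `X • v = g v`;
* `Pr.lin f h` : an additive map commuting with the operators, as a `ℤ[X]`-linear map;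
* `permEnd τ M`: the operator `f ↦ f ∘ τ⁻¹` on `T → M`, `τ` a permutation of `T`;
* `cnt P g`    : the number of elements of `P(g) V`.
-/
import Fermat.Agent.S56.EC.Lat.Defs

set_option autoImplicit false

namespace Fermat.Agent.S56.EC.Lat

open Polynomial

variable {V W : Type*} [AddCommGroup V] [AddCommGroup W]

/-- `P(g)`. -/
noncomputable def pol (g : Module.End ℤ V) (P : ℤ[X]) : Module.End ℤ V := Polynomial.aeval g P

/-- The abelian group `V` with the `ℤ[X]`-module structure given by `g`. -/
def Pr (_g : Module.End ℤ V) : Type _ := V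

instance (g : Module.End ℤ V) : AddCommGroup (Pr g) := inferInstanceAs (AddCommGroup V)

noncomputable instance (g : Module.End ℤ V) : Module ℤ[X] (Pr g) :=
  Module.compHom V (Polynomial.aeval (R := ℤ) g).toRingHom

/-- The identity `V ≃+ Pr g`. -/
def Pr.mk (g : Module.End ℤ V) : V ≃+ Pr g := AddEquiv.refl V

theorem Pr.smul_def (g : Module.End ℤ V) (P : ℤ[X]) (x : Pr g) :
    P • x = Pr.mk g (pol g P ((Pr.mk g).symm x)) := rfl

theorem Pr.smul_mk (g : Module.End ℤ V) (P : ℤ[X]) (x : V) :
    P • Pr.mk g x = Pr.mk g (pol g P x) := rfl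

theorem Pr.X_smul (g : Module.End ℤ V) (x : Pr g) :
    (X : ℤ[X]) • x = Pr.mk g (g ((Pr.mk g).symm x)) := by
  rw [Pr.smul_def, pol, Polynomial.aeval_X]

/-- An additive map which commutes with the operators commutes with `P(g)`. -/
theorem map_pol {g : Module.End ℤ V} {h : Module.End ℤ W} (f : V →+ W)
    (hf : ∀ x, f (g x) = h (f x)) (P : ℤ[X]) (x : V) : f (pol g P x) = pol h P (f x) := by
  unfold pol
  induction P using Polynomial.induction_on generalizing x with
  | C a =>
    rw [Polynomial.aeval_C, Polynomial.aeval_C, Module.algebraMap_end_apply,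
      Module.algebraMap_end_apply]
    exact map_zsmul f a x
  | add P Q hP hQ =>
    rw [map_add, map_add, LinearMap.add_apply, LinearMap.add_apply, map_add, hP, hQ]
  | monomial n a ih =>
    rw [pow_succ, ← mul_assoc, map_mul, map_mul (Polynomial.aeval h), Polynomial.aeval_X,
      Polynomial.aeval_X, Module.End.mul_apply, Module.End.mul_apply, ih, hf]

/-- An additive map commuting with the operators, as a `ℤ[X]`-linear map. -/
def Pr.lin {g : Module.End ℤ V} {h : Module.End ℤ W} (f : V →+ W) (hf : ∀ x, f (g x) = h (f x)) :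
    Pr g →ₗ[ℤ[X]] Pr h where
  toFun x := Pr.mk h (f ((Pr.mk g).symm x))
  map_add' _ _ := map_add f _ _
  map_smul' P _ := map_pol f hf P _

@[simp] theorem Pr.lin_mk {g : Module.End ℤ V} {h : Module.End ℤ W} (f : V →+ W)
    (hf : ∀ x, f (g x) = h (f x)) (x : V) : Pr.lin f hf (Pr.mk g x) = Pr.mk h (f x) := rfl

/-- An additive equivalence commuting with the operators, as a `ℤ[X]`-linear equivalence. -/
def Pr.equiv {g : Module.End ℤ V} {h : Module.End ℤ W} (f : V ≃+ W)
    (hf : ∀ x, f (g x) = h (f x)) : Pr g ≃ₗ[ℤ[X]] Pr h :=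
  { Pr.lin (f : V →+ W) hf with
    invFun := fun y => Pr.mk g (f.symm ((Pr.mk h).symm y))
    left_inv := fun _ => f.symm_apply_apply _
    right_inv := fun _ => f.apply_symm_apply _ }

/-- `g ^ m = 1` ⟹ `X ^ m - 1` kills `Pr g`. -/
theorem Pr.zKilled {g : Module.End ℤ V} {m : ℕ} (hg : g ^ m = 1) :
    ZKilled ((X : ℤ[X]) ^ m - 1) (Pr g) := by
  intro x
  rw [Pr.smul_def, pol, map_sub, map_pow, Polynomial.aeval_X, map_one, hg, sub_self]
  rfl

/-- The operator `f ↦ f ∘ τ⁻¹` on `T → M`. -/
def permEnd {T : Type*} (τ : Equiv.Perm T) (M : Type*) [AddCommGroup M] : Module.End ℤ (T → M) where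
  toFun f := fun t => f (τ.symm t)
  map_add' _ _ := rfl
  map_smul' _ _ := rfl

@[simp] theorem permEnd_apply {T : Type*} (τ : Equiv.Perm T) (M : Type*) [AddCommGroup M]
    (f : T → M) (t : T) : permEnd τ M f t = f (τ.symm t) := rfl

theorem permEnd_pow {T : Type*} (τ : Equiv.Perm T) (M : Type*) [AddCommGroup M] (k : ℕ) :
    permEnd τ M ^ k = permEnd (τ ^ k) M := by
  induction k with
  | zero => rfl
  | succ k ih =>
    rw [pow_succ, ih, pow_succ]
    rfl

theorem permEnd_pow_eq_one {T : Type*} {τ : Equiv.Perm T} {m : ℕ} (h : τ ^ m = 1) (M : Type*)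
    [AddCommGroup M] : permEnd τ M ^ m = 1 := by
  rw [permEnd_pow, h]
  rfl

/-- The number of elements of `P(g) V`. -/
noncomputable def cnt (P : ℤ[X]) (g : Module.End ℤ V) : ℕ :=
  Nat.card (LinearMap.range (pol g P))

end Fermat.Agent.S56.EC.Lat
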