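/-
S56 / EC-LAT, task LAT-12 (sub-architect helper283).  Proofs: helper128 (task 2876).
Helper lemmas: this file, namespace `Fermat.Agent.S56.EC.Lat.PairCount`.

Dictionary between the counts `cq`, `ck` of the `ℤ[X]`-module `Pr g` and the elementary counts `cnt P h`.
Sketch.  `cnt_eq_card_ePart`: the two sets are equal under `Pr.mk` (`Pr.smul_def`), `Nat.card_congr`.
`cnt_congr`: `card_ePart_congr P (Pr.equiv f hf)`.
`cq_eq_cnt_of_surjective`: `Pr.lin q hq'` is surjective with kernel `range (mulP ..)`, so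
`ModP ℤ[X] p (Pr g) ≃ₗ Pr h` (`LinearMap.quotKerEquivOfSurjective`, `Submodule.quotEquivOfEq`), `card_ePart_congr`.
`ck_eq_cnt_of_injective`: `Pr.lin j _` is injective with range `TorP ..` (`LinearEquiv.ofInjective`, `LinearEquiv.ofEq`).
`cnt_exact`: `card_ePart_ker_range` for `Pr.lin π _` (+ `range = ⊤`, `ker = range (Pr.lin i _)`).
-/
import Fermat.Agent.S56.EC.Lat.Pair
import Fermat.Agent.S56.EC.Lat.Exact

set_option autoImplicit false

namespace Fermat.Agent.S56.EC.Lat

open Polynomial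

variable {A B V' V V'' : Type*} [AddCommGroup A] [AddCommGroup B] [AddCommGroup V'] [AddCommGroup V]
  [AddCommGroup V''] {p m : ℕ} {P : ℤ[X]}

theorem cnt_eq_card_ePart (P : ℤ[X]) (g : Module.End ℤ V) : cnt P g = Nat.card (ePart P (Pr g)) := by
  unfold cnt
  refine Nat.card_congr (Equiv.subtypeEquiv (Pr.mk g).toEquiv fun x => ?_)
  constructor
  · rintro ⟨y, rfl⟩
    exact ⟨Pr.mk g y, rfl⟩
  · rintro ⟨y, hy⟩
    exact ⟨(Pr.mk g).symm y, hy⟩

theorem cnt_congr (P : ℤ[X]) {g : Module.End ℤ A} {h : Module.End ℤ B} (f : A ≃+ B)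
    (hf : ∀ x, f (g x) = h (f x)) : cnt P g = cnt P h := by
  rw [cnt_eq_card_ePart, cnt_eq_card_ePart]
  exact card_ePart_congr P (Pr.equiv f hf)

/-- any presentation `q : A → B` of `A / p A`. -/
theorem cq_eq_cnt_of_surjective (P : ℤ[X]) {g : Module.End ℤ A} {h : Module.End ℤ B} (q : A →+ B)
    (hq : Function.Surjective q) (hker : ∀ x, q x = 0 ↔ ∃ y, x = p • y)
    (hc : ∀ x, q (g x) = h (q x)) : cq p P (Pr g) = cnt P h := by
  have hs : Function.Surjective (Pr.lin q hc) := hq
  have hk : LinearMap.range (mulP ℤ[X] p (Pr g)) = LinearMap.ker (Pr.lin q hc) := by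
    ext x
    rw [LinearMap.mem_ker, LinearMap.mem_range]
    constructor
    · rintro ⟨y, rfl⟩
      rw [mulP_apply]
      exact (hker _).2 ⟨y, rfl⟩
    · intro hx
      obtain ⟨y, hy⟩ := (hker _).1 hx
      exact ⟨Pr.mk g y, (mulP_apply p (Pr.mk g y)).trans hy.symm⟩
  rw [cnt_eq_card_ePart]
  exact card_ePart_congr P
    ((Submodule.quotEquivOfEq _ _ hk).trans ((Pr.lin q hc).quotKerEquivOfSurjective hs))

/-- any presentation `j : B → A` of `A[p]`. -/
theorem ck_eq_cnt_of_injective (P : ℤ[X]) {g : Module.End ℤ A} {h : Module.End ℤ B} (j : B →+ A)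
    (hj : Function.Injective j) (hr : ∀ x, (∃ b, j b = x) ↔ p • x = 0)
    (hc : ∀ x, j (h x) = g (j x)) : ck p P (Pr g) = cnt P h := by
  have hi : Function.Injective (Pr.lin j hc) := hj
  have hk : LinearMap.range (Pr.lin j hc) = TorP ℤ[X] p (Pr g) := by
    ext x
    rw [LinearMap.mem_ker, LinearMap.mem_range, mulP_apply]
    exact hr x
  rw [cnt_eq_card_ePart]
  exact (card_ePart_congr P
    ((LinearEquiv.ofInjective (Pr.lin j hc) hi).trans (LinearEquiv.ofEq _ _ hk))).symm

/-- **X1**: `cnt` is multiplicative in short exact sequences of finite groups killed by `p`. -/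
theorem cnt_exact (he : IsIdemMod p ((X : ℤ[X]) ^ m - 1) P) {g' : Module.End ℤ V'}
    {g : Module.End ℤ V} {g'' : Module.End ℤ V''} (hg : g ^ m = 1) (hV : KilledBy p V) [Finite V]
    (i : V' →+ V) (π : V →+ V'') (hi : Function.Injective i) (hπ : Function.Surjective π)
    (hex : ∀ x, π x = 0 ↔ ∃ y, i y = x) (hic : ∀ x, i (g' x) = g (i x))
    (hπc : ∀ x, π (g x) = g'' (π x)) : cnt P g = cnt P g' * cnt P g'' := by
  have hfin : Finite (Pr g) := inferInstanceAs (Finite V)
  have hV' : KilledBy p (Pr g) := hV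
  have hi' : Function.Injective (Pr.lin i hic) := hi
  have hk : LinearMap.range (Pr.lin i hic) = LinearMap.ker (Pr.lin π hπc) := by
    ext x
    rw [LinearMap.mem_ker, LinearMap.mem_range]
    exact (hex x).symm
  have hr : LinearMap.range (Pr.lin π hπc) = ⊤ := LinearMap.range_eq_top.2 hπ
  rw [cnt_eq_card_ePart, cnt_eq_card_ePart, cnt_eq_card_ePart,
    card_ePart_ker_range he hV' (Pr.zKilled hg) (Pr.lin π hπc)]
  congr 1
  · exact (card_ePart_congr P
      ((LinearEquiv.ofInjective (Pr.lin i hic) hi').trans (LinearEquiv.ofEq _ _ hk))).symm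
  · exact card_ePart_congr P ((LinearEquiv.ofEq _ _ hr).trans Submodule.topEquiv)

end Fermat.Agent.S56.EC.Lat
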