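/-
S56 / EC-LAT, task LAT-17 (sub-architect helper283).  STUB: statements FROZEN, replace every sorry.
Helper lemmas: this file, namespace `Fermat.Agent.S56.EC.Lat.PermCount`.

Permutation lattices.  Sketch.  `cq_perm`: `cq_eq_cnt_of_surjective` with `q : (T → ℤ) →+ (T → ZMod p)`, `f ↦ fun t => (f t : ZMod p)`
(surjective: `ZMod.intCast_surjective` + choice; kernel: `(ZMod.intCast_zmod_eq_zero_iff_dvd ..)`/`ZMod.intCast_eq_zero_iff..`, choose the quotients).
`cq_triv`: the same with `Int.castAddHom (ZMod p)`.  `*_congr`: `cq_congr`/`cnt_congr` with `Pr.equiv` of the additive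
equivalence `f ↦ f ∘ e.symm` (`Equiv.arrowCongr`/`AddEquiv.piCongrLeft`-like, by hand).
`noPTor_perm`, `finite_int_perm`: `Pr g` is definitionally `T → ℤ` (use `show`/`inferInstanceAs`).
-/
import Fermat.Agent.S56.EC.Lat.PairCount
import Fermat.Agent.S56.EC.Lat.Congr

set_option autoImplicit false

namespace Fermat.Agent.S56.EC.Lat

open Polynomial

variable {T T' : Type*}

namespace PermCount

/-- reduction modulo `p` of integer valued functions -/
def red (p : ℕ) (T : Type*) : (T → ℤ) →+ (T → ZMod p) where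
  toFun f := fun t => (f t : ZMod p)
  map_zero' := by
    funext t
    simp
  map_add' f g := by
    funext t
    simp

theorem red_surjective (p : ℕ) (T : Type*) : Function.Surjective (red p T) := by
  intro g
  choose f hf using fun t => ZMod.intCast_surjective (g t)
  exact ⟨f, funext hf⟩

theorem intCast_eq_zero_iff (p : ℕ) (a : ℤ) : (a : ZMod p) = 0 ↔ ∃ b : ℤ, a = p • b := by
  rw [CharP.intCast_eq_zero_iff (ZMod p) p a]
  constructor
  · rintro ⟨b, rfl⟩
    exact ⟨b, by simp⟩
  · rintro ⟨b, rfl⟩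
    exact ⟨b, by simp⟩

theorem red_eq_zero_iff (p : ℕ) (x : T → ℤ) : red p T x = 0 ↔ ∃ y, x = p • y := by
  constructor
  · intro h
    have h1 : ∀ t, ∃ b : ℤ, x t = p • b := fun t =>
      (intCast_eq_zero_iff p (x t)).1 (congrFun h t)
    choose y hy using h1
    exact ⟨y, funext hy⟩
  · rintro ⟨y, rfl⟩
    funext t
    exact (intCast_eq_zero_iff p _).2 ⟨y t, rfl⟩

/-- transport of functions along a bijection of the index sets -/
def arrow (M : Type*) [AddCommGroup M] (e : T ≃ T') : (T → M) ≃+ (T' → M) where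
  toFun f := fun t => f (e.symm t)
  invFun f := fun t => f (e t)
  left_inv f := by
    funext t
    simp
  right_inv f := by
    funext t
    simp
  map_add' _ _ := rfl

theorem arrow_comm (M : Type*) [AddCommGroup M] (τ : Equiv.Perm T) (τ' : Equiv.Perm T')
    (e : T ≃ T') (he : ∀ t, e (τ t) = τ' (e t)) (x : T → M) :
    arrow M e (permEnd τ M x) = permEnd τ' M (arrow M e x) := by
  funext t
  show x (τ.symm (e.symm t)) = x (e.symm (τ'.symm t))
  congr 1
  apply e.injective
  apply τ'.injective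
  rw [← he]
  simp

end PermCount

theorem cq_perm (p : ℕ) (P : ℤ[X]) (τ : Equiv.Perm T) :
    cq p P (Pr (permEnd τ ℤ)) = cnt P (permEnd τ (ZMod p)) :=
  cq_eq_cnt_of_surjective P (PermCount.red p T) (PermCount.red_surjective p T)
    (PermCount.red_eq_zero_iff p) (fun _ => rfl)

theorem cq_triv (p : ℕ) (P : ℤ[X]) :
    cq p P (Pr (1 : Module.End ℤ ℤ)) = cnt P (1 : Module.End ℤ (ZMod p)) :=
  cq_eq_cnt_of_surjective P (Int.castAddHom (ZMod p)) ZMod.intCast_surjective
    (PermCount.intCast_eq_zero_iff p) (fun _ => rfl)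

theorem cq_perm_congr (p : ℕ) (P : ℤ[X]) (τ : Equiv.Perm T) (τ' : Equiv.Perm T') (e : T ≃ T')
    (he : ∀ t, e (τ t) = τ' (e t)) : cq p P (Pr (permEnd τ ℤ)) = cq p P (Pr (permEnd τ' ℤ)) :=
  cq_congr p P (Pr.equiv (PermCount.arrow ℤ e) (PermCount.arrow_comm ℤ τ τ' e he))

theorem cnt_perm_congr (P : ℤ[X]) (M : Type*) [AddCommGroup M] (τ : Equiv.Perm T)
    (τ' : Equiv.Perm T') (e : T ≃ T') (he : ∀ t, e (τ t) = τ' (e t)) :
    cnt P (permEnd τ M) = cnt P (permEnd τ' M) :=
  cnt_congr P (PermCount.arrow M e) (PermCount.arrow_comm M τ τ' e he)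

theorem noPTor_perm {p : ℕ} (hp : p ≠ 0) (τ : Equiv.Perm T) : NoPTor p (Pr (permEnd τ ℤ)) := by
  intro x hx
  have key : ∀ y : T → ℤ, p • y = 0 → y = 0 := by
    intro y hy
    funext t
    have h := congrFun hy t
    simp only [Pi.smul_apply, Pi.zero_apply, nsmul_eq_mul] at h
    rcases mul_eq_zero.1 h with h | h
    · exact absurd (by exact_mod_cast h) hp
    · exact h
  exact key x hx

theorem finite_int_perm [Finite T] (τ : Equiv.Perm T) : Module.Finite ℤ (Pr (permEnd τ ℤ)) :=
  Module.Finite.equiv (Pr.mk (permEnd τ ℤ)).toIntLinearEquiv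

theorem free_int_perm [Finite T] (τ : Equiv.Perm T) : Module.Free ℤ (Pr (permEnd τ ℤ)) :=
  Module.Free.of_equiv (Pr.mk (permEnd τ ℤ)).toIntLinearEquiv

theorem finrank_int_perm [Fintype T] (τ : Equiv.Perm T) :
    Module.finrank ℤ (Pr (permEnd τ ℤ)) = Fintype.card T := by
  rw [← (Pr.mk (permEnd τ ℤ)).toIntLinearEquiv.finrank_eq]
  exact Module.finrank_fintype_fun_eq_card ℤ

end Fermat.Agent.S56.EC.Lat
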