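/-
S56 / EC-LAT, task LAT-21 (sub-architect helper283).
Helper lemmas: this file, namespace `Fermat.Agent.S56.EC.Lat.AbsCompare`.

`Λ ⊕ ℤ` and `ℤ[W]` are commensurable: apply `nd_lattice` with `V = W → ℝ`, `γ = LinearMap.funLeft ℝ ℝ τ.symm`,
`φ₁ (λ, n) = Log' λ + n • (fun _ => 1)`, `φ₂ f = fun w => (f w : ℝ)`.
-/
import Fermat.Agent.S56.EC.Lat.ND
import Fermat.Agent.S56.EC.Lat.PermCount

set_option autoImplicit false
set_option linter.unusedSectionVars false

namespace Fermat.Agent.S56.EC.Lat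

open Polynomial

variable {m : ℕ} {Λ : Type*} [AddCommGroup Λ] [Module ℤ[X] Λ] {W : Type*} [Fintype W]

namespace AbsCompare

instance free_one : Module.Free ℤ (Pr (1 : Module.End ℤ ℤ)) := inferInstanceAs (Module.Free ℤ ℤ)

instance finite_one : Module.Finite ℤ (Pr (1 : Module.End ℤ ℤ)) :=
  inferInstanceAs (Module.Finite ℤ ℤ)

theorem finrank_one : Module.finrank ℤ (Pr (1 : Module.End ℤ ℤ)) = 1 :=
  Module.finrank_self ℤ

/-- the constant functions -/
def cst (W : Type*) : Pr (1 : Module.End ℤ ℤ) →+ (W → ℝ) where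
  toFun n := fun _ => (((Pr.mk (1 : Module.End ℤ ℤ)).symm n : ℤ) : ℝ)
  map_zero' := by
    ext w
    simp
  map_add' a b := by
    ext w
    simp

/-- `φ₁` -/
def phi1 (Log' : Λ →+ (W → ℝ)) : (Λ × Pr (1 : Module.End ℤ ℤ)) →+ (W → ℝ) :=
  Log'.comp (AddMonoidHom.fst _ _) + (cst W).comp (AddMonoidHom.snd _ _)

theorem phi1_apply (Log' : Λ →+ (W → ℝ)) (u : Λ) (n : Pr (1 : Module.End ℤ ℤ)) (w : W) :
    phi1 Log' (u, n) w = Log' u w + (((Pr.mk (1 : Module.End ℤ ℤ)).symm n : ℤ) : ℝ) := rfl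

/-- `φ₂` -/
def phi2 (τ : Equiv.Perm W) : Pr (permEnd τ ℤ) →+ (W → ℝ) where
  toFun f := fun w => (((Pr.mk (permEnd τ ℤ)).symm f w : ℤ) : ℝ)
  map_zero' := by
    ext w
    simp
  map_add' a b := by
    ext w
    simp

theorem phi2_apply (τ : Equiv.Perm W) (f : Pr (permEnd τ ℤ)) (w : W) :
    phi2 τ f w = (((Pr.mk (permEnd τ ℤ)).symm f w : ℤ) : ℝ) := rfl

theorem X_smul_one (n : Pr (1 : Module.End ℤ ℤ)) : (X : ℤ[X]) • n = n := by
  rw [Pr.X_smul]
  rfl

end AbsCompare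

open AbsCompare in
theorem exists_compare (hm : 0 < m) [Module.Free ℤ Λ] [Module.Finite ℤ Λ]
    (hz : ZKilled ((X : ℤ[X]) ^ m - 1) Λ) (τ : Equiv.Perm W) (hτ : τ ^ m = 1)
    (Log' : Λ →+ (W → ℝ)) (hLog : ∀ u w, Log' ((X : ℤ[X]) • u) w = Log' u (τ.symm w))
    (hspan : ∀ x : W → ℝ, ∑ w, x w = 0 → x ∈ Submodule.span ℝ (Set.range Log'))
    (hrank : Module.finrank ℤ Λ + 1 = Fintype.card W) :
    ∃ f : (Λ × Pr (1 : Module.End ℤ ℤ)) →ₗ[ℤ[X]] Pr (permEnd τ ℤ),
      Function.Injective f ∧ Finite (Pr (permEnd τ ℤ) ⧸ LinearMap.range f) := by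
  classical
  have := finite_int_perm τ
  have := free_int_perm τ
  have hz₁ : ZKilled ((X : ℤ[X]) ^ m - 1) (Λ × Pr (1 : Module.End ℤ ℤ)) := by
    rintro ⟨u, n⟩
    have h1 : ((X : ℤ[X]) ^ m - 1) • n = 0 :=
      Pr.zKilled (g := (1 : Module.End ℤ ℤ)) (m := m) (one_pow m) n
    rw [Prod.smul_mk, hz u, h1]
    rfl
  have hz₂ : ZKilled ((X : ℤ[X]) ^ m - 1) (Pr (permEnd τ ℤ)) :=
    Pr.zKilled (permEnd_pow_eq_one hτ ℤ)
  have hcard : (0 : ℝ) < Fintype.card W := by
    have : 0 < Fintype.card W := by omega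
    exact_mod_cast this
  refine nd_lattice (V := W → ℝ) hm hz₁ hz₂ (LinearMap.funLeft ℝ ℝ τ.symm) (phi1 Log') (phi2 τ)
    ?_ ?_ ?_ ?_ ?_ ?_
  · rintro ⟨u, n⟩
    ext w
    rw [Prod.smul_mk, X_smul_one, phi1_apply, hLog, LinearMap.funLeft_apply, phi1_apply]
  · intro f
    ext w
    rw [LinearMap.funLeft_apply, phi2_apply, phi2_apply, Pr.X_smul]
    rfl
  · rw [Module.finrank_prod, finrank_one, hrank, Module.finrank_fintype_fun_eq_card]
  · rw [finrank_int_perm, Module.finrank_fintype_fun_eq_card]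
  · rw [eq_top_iff]
    intro x _
    set c : ℝ := (∑ w, x w) / Fintype.card W with hc
    have h1 : (x - fun _ => c) ∈ Submodule.span ℝ (Set.range (phi1 Log')) := by
      have h2 : (x - fun _ => c) ∈ Submodule.span ℝ (Set.range Log') := by
        apply hspan
        simp only [Pi.sub_apply, Finset.sum_sub_distrib, Finset.sum_const, Finset.card_univ,
          nsmul_eq_mul]
        rw [hc]
        field_simp
        ring
      refine Submodule.span_mono ?_ h2
      rintro _ ⟨u, rfl⟩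
      refine ⟨(u, 0), ?_⟩
      ext w
      rw [phi1_apply]
      simp
    have h3 : (fun _ : W => c) ∈ Submodule.span ℝ (Set.range (phi1 Log')) := by
      have h4 : (fun _ : W => c) = c • phi1 Log' (0, Pr.mk (1 : Module.End ℤ ℤ) 1) := by
        ext w
        rw [Pi.smul_apply, phi1_apply]
        simp
      rw [h4]
      exact Submodule.smul_mem _ _ (Submodule.subset_span ⟨_, rfl⟩)
    have h5 : x = (x - fun _ => c) + fun _ => c := by
      ext w
      simp
    rw [h5]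
    exact add_mem h1 h3
  · rw [eq_top_iff]
    intro x _
    have h1 : x = ∑ w, x w • phi2 τ (Pr.mk (permEnd τ ℤ) (Pi.single w 1)) := by
      ext v
      rw [Finset.sum_apply, Finset.sum_eq_single v]
      · rw [Pi.smul_apply, phi2_apply]
        simp
      · intro b _ hb
        rw [Pi.smul_apply, phi2_apply]
        simp [hb.symm]
      · intro h
        exact absurd (Finset.mem_univ v) h
    rw [h1]
    exact Submodule.sum_mem _ fun w _ =>
      Submodule.smul_mem _ _ (Submodule.subset_span ⟨_, rfl⟩)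

end Fermat.Agent.S56.EC.Lat
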