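/-
S56 / EC-LAT, task LAT-19 (sub-architect helper283).
Helper lemmas: this file, namespace `Fermat.Agent.S56.EC.Lat.AbsKer`.

The kernel of an equivariant "logarithm" is a finite `ℤ[X]`-submodule.
Sketch.  `exists_submodule_of_X Log.ker` (stable: `Log (X • u) = Log u ∘ τ.symm = 0`).  Finite: `N` is a finitely generated
`ℤ`-module (submodule of the noetherian `ℤ`-module `U`: `Module.Finite ℤ ↥(N.restrictScalars ℤ)`, `IsNoetherian`) and torsion
(`hker`), `Module.finite_of_fg_torsion`.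
-/
import Fermat.Agent.S56.EC.Lat.XLin

set_option autoImplicit false

namespace Fermat.Agent.S56.EC.Lat

open Polynomial

variable {U : Type*} [AddCommGroup U] [Module ℤ[X] U] {W : Type*}

theorem exists_kerLog [Module.Finite ℤ U] (τ : Equiv.Perm W) (Log : U →+ (W → ℝ))
    (hLog : ∀ u w, Log ((X : ℤ[X]) • u) w = Log u (τ.symm w))
    (hker : ∀ u, Log u = 0 → ∃ n : ℕ, n ≠ 0 ∧ n • u = 0) :
    ∃ N : Submodule ℤ[X] U, (∀ u, u ∈ N ↔ Log u = 0) ∧ Finite N := by
  obtain ⟨N, hN⟩ := exists_submodule_of_X Log.ker (fun x hx => by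
    rw [AddMonoidHom.mem_ker] at hx ⊢
    funext w
    rw [hLog, hx]
    rfl)
  have hN' : ∀ u, u ∈ N ↔ Log u = 0 := fun u => by rw [hN, AddMonoidHom.mem_ker]
  refine ⟨N, hN', ?_⟩
  let K : Submodule ℤ U := AddSubgroup.toIntSubmodule Log.ker
  have hK : ∀ u, u ∈ K ↔ Log u = 0 := fun u => AddMonoidHom.mem_ker
  have hfin : Module.Finite ℤ K := inferInstance
  have htors : Module.IsTorsion ℤ K := by
    intro x
    obtain ⟨n, hn, hx⟩ := hker x ((hK x).1 x.2)
    refine ⟨⟨(n : ℤ), mem_nonZeroDivisors_of_ne_zero (by exact_mod_cast hn)⟩, Subtype.ext ?_⟩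
    show ((n : ℤ) • (x : U)) = 0
    rw [natCast_zsmul, hx]
  have hKfin : Finite K := Module.finite_of_fg_torsion K htors
  exact Finite.of_injective (fun x : N => (⟨x, (hK x).2 ((hN' x).1 x.2)⟩ : K))
    (fun x y h => Subtype.ext (congrArg (fun z : K => (z : U)) h))

end Fermat.Agent.S56.EC.Lat
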