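/-
S56 / EC-LAT, task LAT-20 (sub-architect helper283).  Statements FROZEN.
Helper lemmas: this file, namespace `Fermat.Agent.S56.EC.Lat.AbsQuot`.

`Λ = U ⧸ N`, `N = ker Log` finite.  `Λ` is a lattice of the same rank as `U`, and `Log` factors through it.
Sketch.  `exists_quotLog`: `QuotientAddGroup.lift`/`Submodule.liftQ` of the `ℤ`-linear (additive) map; injective by `hN`.
`quot_finite`: `Module.Finite.of_surjective (N.mkQ.restrictScalars ℤ)`.  Torsion free: `n • x = 0` ⟹ `n • Log' x = 0` in a real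
vector space ⟹ `Log' x = 0` ⟹ `x = 0`; so `NoZeroSMulDivisors ℤ Λ` (or `Module.IsTorsionFree`) and `Module.free_of_finite_type_torsion_free'`.
`quot_finrank`: `Submodule.finrank_quotient_add_finrank (N.restrictScalars ℤ)` and `finrank ℤ N = 0` for a finite `N`
(`Module.finrank_eq_zero_of_..`; a copy is `S55.NIT.FI.finrank_int_eq_zero_of_finite`, do not import it: reprove, 10 lines:
rank of a torsion module is `0`, `rank_eq_zero_iff`); careful: `U ⧸ N` versus `U ⧸ N.restrictScalars ℤ` (same carrier: build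
the `ℤ`-linear equivalence with `Submodule.Quotient.restrictScalarsEquiv ℤ N`).
-/
import Fermat.Agent.S56.EC.Lat.XLin

set_option autoImplicit false

namespace Fermat.Agent.S56.EC.Lat

open Polynomial

variable {U : Type*} [AddCommGroup U] [Module ℤ[X] U] {W : Type*} (N : Submodule ℤ[X] U)
  (Log : U →+ (W → ℝ))

theorem exists_quotLog (hN : ∀ u, u ∈ N ↔ Log u = 0) :
    ∃ Log' : (U ⧸ N) →+ (W → ℝ), Function.Injective Log' ∧
      ∀ u, Log' (Submodule.Quotient.mk u) = Log u := by
  have hle : N.restrictScalars ℤ ≤ LinearMap.ker Log.toIntLinearMap := fun u hu => (hN u).1 hu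
  let L : (U ⧸ N) →ₗ[ℤ] (W → ℝ) :=
    ((N.restrictScalars ℤ).liftQ Log.toIntLinearMap hle).comp
      (Submodule.Quotient.restrictScalarsEquiv ℤ N).symm.toLinearMap
  have hL : ∀ u, L (Submodule.Quotient.mk u) = Log u := fun u => rfl
  refine ⟨L.toAddMonoidHom, ?_, hL⟩
  rw [injective_iff_map_eq_zero]
  intro x hx
  obtain ⟨u, rfl⟩ := Submodule.Quotient.mk_surjective N x
  have h1 : Log u = 0 := (hL u).symm.trans hx
  exact (Submodule.Quotient.mk_eq_zero N).2 ((hN u).2 h1)

theorem quot_finite [Module.Finite ℤ U] : Module.Finite ℤ (U ⧸ N) := by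
  infer_instance

/-- torsion freeness, elementwise. -/
theorem AbsQuot.eq_zero_of_zsmul (hN : ∀ u, u ∈ N ↔ Log u = 0) {n : ℤ} (hn : n ≠ 0) {x : U ⧸ N}
    (hx : n • x = 0) : x = 0 := by
  obtain ⟨Log', hinj, -⟩ := exists_quotLog N Log hN
  apply hinj
  rw [map_zero]
  have h1 : n • Log' x = 0 := by rw [← map_zsmul, hx, map_zero]
  funext w
  have h2 := congrFun h1 w
  rw [Pi.smul_apply, Pi.zero_apply, zsmul_eq_mul] at h2
  rcases mul_eq_zero.1 h2 with h | h
  · exact absurd (by exact_mod_cast h) hn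
  · exact h

theorem quot_free [Module.Finite ℤ U] (hN : ∀ u, u ∈ N ↔ Log u = 0) : Module.Free ℤ (U ⧸ N) := by
  have := quot_finite N
  have : Module.IsTorsionFree ℤ (U ⧸ N) := Module.IsTorsionFree.of_smul_eq_zero fun r m h => by
    by_cases hr : r = 0
    · exact Or.inl hr
    · exact Or.inr (AbsQuot.eq_zero_of_zsmul N Log hN hr h)
  infer_instance

theorem quot_noPTor {p : ℕ} (hp : p ≠ 0) (hN : ∀ u, u ∈ N ↔ Log u = 0) : NoPTor p (U ⧸ N) := by
  intro x hx
  refine AbsQuot.eq_zero_of_zsmul N Log hN (n := (p : ℤ)) (by exact_mod_cast hp) ?_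
  rw [natCast_zsmul]
  exact hx

theorem quot_finrank [Module.Finite ℤ U] [Finite N] :
    Module.finrank ℤ (U ⧸ N) = Module.finrank ℤ U := by
  have h0 : Module.finrank ℤ N = 0 := by
    apply Module.finrank_eq_zero_of_rank_eq_zero
    rw [rank_eq_zero_iff]
    intro x
    refine ⟨(Nat.card N : ℤ), by exact_mod_cast Nat.card_pos.ne', ?_⟩
    rw [natCast_zsmul]
    exact card_nsmul_eq_zero'
  rw [Submodule.finrank_quotient (R := ℤ) N, h0, Nat.sub_zero]

end Fermat.Agent.S56.EC.Lat
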