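/-
S56 / EC-LAT, task LAT-24 (sub-architect helper283).  STUB: statements FROZEN, replace every sorry.
Helper lemmas: this file, namespace `Fermat.Agent.S56.EC.Lat.AbsCmpTors`.

`U ⊕ ℤ → ℤ[W]` with finite kernel and cokernel (`U` may have torsion).
Sketch.  `N` from `exists_kerLog τ Log hLog hker`, `Λ := U ⧸ N`, `Log'` from `exists_quotLog N Log hN`; instances
`quot_finite N`, `quot_free N Log hN`; `quot_finrank N`; `ZKilled` of the quotient: every element is `Submodule.Quotient.mk u`,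
`z • mk u = mk (z • u) = 0`.  The hypotheses of `exists_compare` for `Log'` follow from those for `Log`
(`Submodule.Quotient.induction_on`/`Submodule.mkQ_surjective`; `Set.range Log' = Set.range Log`).
`f₀` from `exists_compare`; `f := f₀ ∘ₗ LinearMap.prodMap N.mkQ LinearMap.id`.
`range f = range f₀` (`LinearMap.range_comp_of_range_eq_top`, the first map is surjective).
`ker f`: `(u, n) ∈ ker f ↔ u ∈ N ∧ n = 0` (injectivity of `f₀`), so `ker f` injects into `N` (`Finite.of_injective`).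
-/
import Fermat.Agent.S56.EC.Lat.AbsKer
import Fermat.Agent.S56.EC.Lat.AbsQuot
import Fermat.Agent.S56.EC.Lat.AbsCompare

set_option autoImplicit false

namespace Fermat.Agent.S56.EC.Lat

open Polynomial

variable {m : ℕ} {U : Type*} [AddCommGroup U] [Module ℤ[X] U] {W : Type*} [Fintype W]

theorem exists_compare_tors (hm : 0 < m) [Module.Finite ℤ U]
    (hz : ZKilled ((X : ℤ[X]) ^ m - 1) U) (τ : Equiv.Perm W) (hτ : τ ^ m = 1)
    (Log : U →+ (W → ℝ)) (hLog : ∀ u w, Log ((X : ℤ[X]) • u) w = Log u (τ.symm w))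
    (hker : ∀ u, Log u = 0 → ∃ n : ℕ, n ≠ 0 ∧ n • u = 0)
    (hspan : ∀ x : W → ℝ, ∑ w, x w = 0 → x ∈ Submodule.span ℝ (Set.range Log))
    (hrank : Module.finrank ℤ U + 1 = Fintype.card W) :
    ∃ f : (U × Pr (1 : Module.End ℤ ℤ)) →ₗ[ℤ[X]] Pr (permEnd τ ℤ),
      Finite (LinearMap.ker f) ∧ Finite (Pr (permEnd τ ℤ) ⧸ LinearMap.range f) := by
  obtain ⟨N, hN, hNfin⟩ := exists_kerLog τ Log hLog hker
  obtain ⟨Log', hinj, hLog'⟩ := exists_quotLog N Log hN
  have i1 : Module.Finite ℤ (U ⧸ N) := quot_finite N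
  have i2 : Module.Free ℤ (U ⧸ N) := quot_free N Log hN
  have hz' : ZKilled ((X : ℤ[X]) ^ m - 1) (U ⧸ N) := by
    intro x
    obtain ⟨u, rfl⟩ := Submodule.Quotient.mk_surjective N x
    rw [← Submodule.Quotient.mk_smul, hz u, Submodule.Quotient.mk_zero]
  have hLogX : ∀ (x : U ⧸ N) w, Log' ((X : ℤ[X]) • x) w = Log' x (τ.symm w) := by
    intro x w
    obtain ⟨u, rfl⟩ := Submodule.Quotient.mk_surjective N x
    rw [← Submodule.Quotient.mk_smul, hLog', hLog', hLog]
  have hrange : Set.range Log' = Set.range Log := by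
    ext y
    constructor
    · rintro ⟨x, rfl⟩
      obtain ⟨u, rfl⟩ := Submodule.Quotient.mk_surjective N x
      exact ⟨u, (hLog' u).symm⟩
    · rintro ⟨u, rfl⟩
      exact ⟨_, hLog' u⟩
  have hspan' : ∀ x : W → ℝ, ∑ w, x w = 0 → x ∈ Submodule.span ℝ (Set.range Log') := by
    rw [hrange]
    exact hspan
  have hrank' : Module.finrank ℤ (U ⧸ N) + 1 = Fintype.card W := by
    rw [quot_finrank N, hrank]
  obtain ⟨f₀, hf₀, hcok⟩ := exists_compare hm hz' τ hτ Log' hLogX hspan' hrank'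
  let q : (U × Pr (1 : Module.End ℤ ℤ)) →ₗ[ℤ[X]] ((U ⧸ N) × Pr (1 : Module.End ℤ ℤ)) :=
    LinearMap.prodMap N.mkQ LinearMap.id
  have hq : Function.Surjective q := by
    rintro ⟨x, n⟩
    obtain ⟨u, rfl⟩ := Submodule.Quotient.mk_surjective N x
    exact ⟨(u, n), rfl⟩
  refine ⟨f₀ ∘ₗ q, ?_, ?_⟩
  · have hmem : ∀ x : LinearMap.ker (f₀ ∘ₗ q), (x : U × Pr (1 : Module.End ℤ ℤ)).1 ∈ N ∧
        (x : U × Pr (1 : Module.End ℤ ℤ)).2 = 0 := by
      intro x
      have h1 : f₀ (q x) = 0 := x.2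
      have h2 : q x = 0 := hf₀ (by rw [h1, map_zero])
      exact ⟨(Submodule.Quotient.mk_eq_zero N).1 (congrArg Prod.fst h2), congrArg Prod.snd h2⟩
    refine Finite.of_injective
      (fun x : LinearMap.ker (f₀ ∘ₗ q) => (⟨(x : U × Pr (1 : Module.End ℤ ℤ)).1, (hmem x).1⟩ : N)) ?_
    intro x y h
    apply Subtype.ext
    apply Prod.ext
    · exact congrArg (fun z : N => (z : U)) h
    · rw [(hmem x).2, (hmem y).2]
  · rw [LinearMap.range_comp_of_range_eq_top f₀ (LinearMap.range_eq_top.2 hq)]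
    exact hcok

end Fermat.Agent.S56.EC.Lat
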