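/-
S56 / EC-LAT, task LAT-9 (sub-architect helper283).  (proved by helper198, task 2798.)
Helper lemmas: this file, namespace `Fermat.Agent.S56.EC.Lat.ChainCoker`.

`coker (L'/p → L/p) ≃ Q / p`, `Q = L / f L'`: both are `L ⧸ (p L + f L')`.
Sketch.  `Submodule.quotientQuotientEquivQuotientSup S T : ((M ⧸ S) ⧸ T.map S.mkQ) ≃ₗ M ⧸ S ⊔ T` twice, with
`range (modPMap p f) = (range f).map (range (mulP R p L)).mkQ` and
`range (mulP R p (L ⧸ range f)) = (range (mulP R p L)).map (range f).mkQ`, `sup_comm`,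
`Submodule.quotEquivOfEq`.  (Or directly two `Submodule.liftQ` maps inverse to each other.)
-/
import Fermat.Agent.S56.EC.Lat.Defs

set_option autoImplicit false

namespace Fermat.Agent.S56.EC.Lat

variable {R : Type*} [CommRing R] {p : ℕ} {z e : R}

variable {L' L : Type*} [AddCommGroup L'] [Module R L'] [AddCommGroup L] [Module R L]

namespace ChainCoker

/-- `L → (L / p) / image of L'`. -/
def pi₁ (p : ℕ) (f : L' →ₗ[R] L) : L →ₗ[R] ModP R p L ⧸ LinearMap.range (modPMap p f) :=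
  (Submodule.mkQ _) ∘ₗ (Submodule.mkQ _)

/-- `L → (L / f L') / p`. -/
def pi₂ (p : ℕ) (f : L' →ₗ[R] L) : L →ₗ[R] ModP R p (L ⧸ LinearMap.range f) :=
  (Submodule.mkQ _) ∘ₗ (Submodule.mkQ _)

theorem pi₁_surjective (p : ℕ) (f : L' →ₗ[R] L) : Function.Surjective (pi₁ p f) :=
  (Submodule.mkQ_surjective _).comp (Submodule.mkQ_surjective _)

theorem pi₂_surjective (p : ℕ) (f : L' →ₗ[R] L) : Function.Surjective (pi₂ p f) :=
  (Submodule.mkQ_surjective _).comp (Submodule.mkQ_surjective _)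

theorem mem_ker_pi₁ (p : ℕ) (f : L' →ₗ[R] L) (x : L) :
    x ∈ LinearMap.ker (pi₁ p f) ↔ ∃ (a : L') (b : L), x = f a + p • b := by
  rw [LinearMap.mem_ker]
  show Submodule.Quotient.mk (Submodule.Quotient.mk x) = 0 ↔ _
  rw [Submodule.Quotient.mk_eq_zero, LinearMap.mem_range]
  constructor
  · rintro ⟨y, hy⟩
    obtain ⟨a, rfl⟩ := Submodule.Quotient.mk_surjective _ y
    rw [modPMap_mk, Submodule.Quotient.eq] at hy
    obtain ⟨b, hb⟩ := hy
    rw [mulP_apply] at hb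
    refine ⟨a, -b, ?_⟩
    rw [smul_neg, hb]
    abel
  · rintro ⟨a, b, rfl⟩
    refine ⟨Submodule.Quotient.mk a, ?_⟩
    rw [modPMap_mk, Submodule.Quotient.eq]
    refine ⟨-b, ?_⟩
    rw [mulP_apply, smul_neg]
    abel

theorem mem_ker_pi₂ (p : ℕ) (f : L' →ₗ[R] L) (x : L) :
    x ∈ LinearMap.ker (pi₂ p f) ↔ ∃ (a : L') (b : L), x = f a + p • b := by
  rw [LinearMap.mem_ker]
  show Submodule.Quotient.mk (Submodule.Quotient.mk x) = 0 ↔ _
  rw [Submodule.Quotient.mk_eq_zero, LinearMap.mem_range]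
  constructor
  · rintro ⟨y, hy⟩
    obtain ⟨b, rfl⟩ := Submodule.Quotient.mk_surjective _ y
    rw [mulP_apply, ← Submodule.Quotient.mk_smul, Submodule.Quotient.eq] at hy
    obtain ⟨a, ha⟩ := hy
    refine ⟨-a, b, ?_⟩
    rw [map_neg, ha]
    abel
  · rintro ⟨a, b, rfl⟩
    refine ⟨Submodule.Quotient.mk b, ?_⟩
    rw [mulP_apply, ← Submodule.Quotient.mk_smul, Submodule.Quotient.eq]
    refine ⟨-a, ?_⟩
    rw [map_neg]
    abel

theorem ker_pi₁_eq (p : ℕ) (f : L' →ₗ[R] L) :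
    LinearMap.ker (pi₁ p f) = LinearMap.ker (pi₂ p f) := by
  ext x
  rw [mem_ker_pi₁, mem_ker_pi₂]

end ChainCoker

theorem nonempty_coker_modPMap_equiv (p : ℕ) (f : L' →ₗ[R] L) :
    Nonempty ((ModP R p L ⧸ LinearMap.range (modPMap p f)) ≃ₗ[R]
      ModP R p (L ⧸ LinearMap.range f)) :=
  ⟨((ChainCoker.pi₁ p f).quotKerEquivOfSurjective (ChainCoker.pi₁_surjective p f)).symm.trans
    ((Submodule.quotEquivOfEq _ _ (ChainCoker.ker_pi₁_eq p f)).trans
      ((ChainCoker.pi₂ p f).quotKerEquivOfSurjective (ChainCoker.pi₂_surjective p f)))⟩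

end Fermat.Agent.S56.EC.Lat
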