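/-
S56 / EC-LAT, task LAT-8 (sub-architect helper283).
Helper lemmas: this file, namespace `Fermat.Agent.S56.EC.Lat.ChainKer`.

`f : L' → L` injective, `L` without `p`-torsion, `Q = L / f L'`.  Then `ker (L'/p → L/p) ≃ Q[p]`.
Sketch (no choice needed).  `N := {(a, x) : L' × L | f a = p x}` (kernel of `(a, x) ↦ f a - p • x`).
`pr₁ : N → ModP R p L'`, `(a, x) ↦ [a]`;  `pr₂ : N → L ⧸ range f`, `(a, x) ↦ [x]`.
`range pr₁ = ker (modPMap p f)`, `range pr₂ = TorP R p (L ⧸ range f)`, and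
`ker pr₁ = ker pr₂ = {(p b, f b)}` (`a = p b` ⟹ `p x = p f b` ⟹ `x = f b`;  `x = f b` ⟹ `f a = f (p b)` ⟹ `a = p b`).
Conclude with `LinearMap.quotKerEquivRange` twice, `Submodule.quotEquivOfEq`, `LinearEquiv.ofEq`.
-/
import Fermat.Agent.S56.EC.Lat.Defs

set_option autoImplicit false

namespace Fermat.Agent.S56.EC.Lat

variable {R : Type*} [CommRing R] {p : ℕ} {z e : R}

variable {L' L : Type*} [AddCommGroup L'] [Module R L'] [AddCommGroup L] [Module R L]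

namespace ChainKer

/-- the correspondence `N = {(a, x) | f a = p x}`. -/
def corr (p : ℕ) (f : L' →ₗ[R] L) : Submodule R (L' × L) :=
  LinearMap.ker (f ∘ₗ LinearMap.fst R L' L - mulP R p L ∘ₗ LinearMap.snd R L' L)

theorem mem_corr {f : L' →ₗ[R] L} {y : L' × L} : y ∈ corr p f ↔ f y.1 = p • y.2 := by
  rw [corr, LinearMap.mem_ker, LinearMap.sub_apply, LinearMap.comp_apply, LinearMap.comp_apply,
    LinearMap.fst_apply, LinearMap.snd_apply, mulP_apply, sub_eq_zero]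

/-- `(a, x) ↦ [a]`. -/
def pr₁ (p : ℕ) (f : L' →ₗ[R] L) : corr p f →ₗ[R] ModP R p L' :=
  (Submodule.mkQ _) ∘ₗ LinearMap.fst R L' L ∘ₗ (corr p f).subtype

/-- `(a, x) ↦ [x]`. -/
def pr₂ (p : ℕ) (f : L' →ₗ[R] L) : corr p f →ₗ[R] L ⧸ LinearMap.range f :=
  (Submodule.mkQ _) ∘ₗ LinearMap.snd R L' L ∘ₗ (corr p f).subtype

theorem pr₁_apply (f : L' →ₗ[R] L) (y : corr p f) :
    pr₁ p f y = Submodule.Quotient.mk (y : L' × L).1 := rfl

theorem pr₂_apply (f : L' →ₗ[R] L) (y : corr p f) :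
    pr₂ p f y = Submodule.Quotient.mk (y : L' × L).2 := rfl

theorem range_pr₁ (f : L' →ₗ[R] L) : LinearMap.range (pr₁ p f) = LinearMap.ker (modPMap p f) := by
  ext y
  rw [LinearMap.mem_range, LinearMap.mem_ker]
  constructor
  · rintro ⟨⟨⟨a, x⟩, h⟩, rfl⟩
    rw [pr₁_apply, modPMap_mk, Submodule.Quotient.mk_eq_zero]
    exact ⟨x, by rw [mulP_apply]; exact (mem_corr.1 h).symm⟩
  · obtain ⟨a, rfl⟩ := Submodule.Quotient.mk_surjective _ y
    intro h
    rw [modPMap_mk, Submodule.Quotient.mk_eq_zero] at h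
    obtain ⟨x, hx⟩ := h
    rw [mulP_apply] at hx
    exact ⟨⟨(a, x), mem_corr.2 hx.symm⟩, rfl⟩

theorem range_pr₂ (f : L' →ₗ[R] L) :
    LinearMap.range (pr₂ p f) = TorP R p (L ⧸ LinearMap.range f) := by
  ext y
  rw [LinearMap.mem_range, LinearMap.mem_ker, mulP_apply]
  constructor
  · rintro ⟨⟨⟨a, x⟩, h⟩, rfl⟩
    rw [pr₂_apply, ← Submodule.Quotient.mk_smul, Submodule.Quotient.mk_eq_zero]
    exact ⟨a, mem_corr.1 h⟩
  · obtain ⟨x, rfl⟩ := Submodule.Quotient.mk_surjective _ y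
    intro h
    rw [← Submodule.Quotient.mk_smul, Submodule.Quotient.mk_eq_zero] at h
    obtain ⟨a, ha⟩ := h
    exact ⟨⟨(a, x), mem_corr.2 ha⟩, rfl⟩

theorem ker_pr₁_eq (f : L' →ₗ[R] L) (hf : Function.Injective f) (htf : NoPTor p L) :
    LinearMap.ker (pr₁ p f) = LinearMap.ker (pr₂ p f) := by
  ext ⟨⟨a, x⟩, h⟩
  have h' : f a = p • x := mem_corr.1 h
  rw [LinearMap.mem_ker, LinearMap.mem_ker, pr₁_apply, pr₂_apply, Submodule.Quotient.mk_eq_zero,
    Submodule.Quotient.mk_eq_zero]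
  constructor
  · rintro ⟨b, hb⟩
    rw [mulP_apply] at hb
    have hb' : p • b = a := hb
    refine ⟨b, ?_⟩
    have h1 : p • (f b - x) = 0 := by
      rw [smul_sub, ← h', ← hb', map_nsmul, sub_self]
    exact sub_eq_zero.1 (htf _ h1)
  · rintro ⟨b, hb⟩
    have hb' : f b = x := hb
    refine ⟨b, ?_⟩
    rw [mulP_apply]
    apply hf
    show f (p • b) = f a
    rw [map_nsmul, hb', h']

end ChainKer

theorem nonempty_ker_modPMap_equiv (f : L' →ₗ[R] L) (hf : Function.Injective f) (htf : NoPTor p L) :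
    Nonempty (LinearMap.ker (modPMap p f) ≃ₗ[R] TorP R p (L ⧸ LinearMap.range f)) :=
  ⟨(LinearEquiv.ofEq _ _ (ChainKer.range_pr₁ f).symm).trans
    ((ChainKer.pr₁ p f).quotKerEquivRange.symm.trans
      ((Submodule.quotEquivOfEq _ _ (ChainKer.ker_pr₁_eq f hf htf)).trans
        ((ChainKer.pr₂ p f).quotKerEquivRange.trans
          (LinearEquiv.ofEq _ _ (ChainKer.range_pr₂ f)))))⟩

end Fermat.Agent.S56.EC.Lat
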