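/-
S56 / EC-LAT, task LAT-3 (sub-architect helper283; proofs helper230).
Helper lemmas: this file, namespace `Fermat.Agent.S56.EC.Lat.FinCore`.

`Q` a finite module on which `E : R` acts as an idempotent.  Then `# E (Q[p]) = # E (Q / p Q)`.
Sketch.  `G := ePart E Q` is a finite abelian group, so `#G[p] = #(G / p G)` (kernel and cokernel of the
endomorphism `p` of a finite group: `card G = card ker * card range`, `card G = card (G ⧸ range) * card range`).
`ePart E (TorP R p Q) ≃ TorP R p G`: `x ∈ G`, `p x = 0` ⟹ `x = E • x` with `x ∈ Q[p]`; conversely clear.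
`ModP R p G ≃ ePart E (ModP R p Q)`: the map `G → Q / p Q` has image `E (Q / p Q)` and kernel `G ∩ p Q = p G`
(`x = E • x = E • (p y) = p (E • y)`).  Only cardinalities are needed (`Nat.card_congr`, bijections suffice).
-/
import Fermat.Agent.S56.EC.Lat.Defs

set_option autoImplicit false

namespace Fermat.Agent.S56.EC.Lat

variable {R : Type*} [CommRing R] {p : ℕ} {z e : R}

namespace FinCore

theorem smul_eq_self {E : R} {Q : Type*} [AddCommGroup Q] [Module R Q]
    (hE : ∀ x : Q, E • E • x = E • x) {x : Q} (hx : x ∈ ePart E Q) : E • x = x := by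
  obtain ⟨y, rfl⟩ := mem_ePart.1 hx
  exact hE y

theorem card_ker_eq_card_quot {G : Type*} [AddCommGroup G] [Module R G] [Finite G]
    (φ : G →ₗ[R] G) : Nat.card (LinearMap.ker φ) = Nat.card (G ⧸ LinearMap.range φ) := by
  have h1 := Submodule.card_eq_card_quotient_mul_card (LinearMap.ker φ)
  have h2 := Submodule.card_eq_card_quotient_mul_card (LinearMap.range φ)
  have h3 : Nat.card (G ⧸ LinearMap.ker φ) = Nat.card (LinearMap.range φ) :=
    Nat.card_congr φ.quotKerEquivRange.toEquiv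
  have h4 : 0 < Nat.card (LinearMap.range φ) := Nat.card_pos
  rw [h3] at h1
  rw [h1, mul_comm] at h2
  exact Nat.eq_of_mul_eq_mul_left h4 h2

/-- `E (Q[p]) ≃ (E Q)[p]`. -/
def torEquiv (p : ℕ) (E : R) (Q : Type*) [AddCommGroup Q] [Module R Q]
    (hE : ∀ x : Q, E • E • x = E • x) :
    ePart E (TorP R p Q) ≃ TorP R p (ePart E Q) where
  toFun t := ⟨⟨t.1.1, by
      obtain ⟨y, hy⟩ := mem_ePart.1 t.2
      exact mem_ePart.2 ⟨y.1, congrArg Subtype.val hy⟩⟩, by
      rw [LinearMap.mem_ker]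
      apply Subtype.ext
      have h1 : mulP R p Q t.1.1 = 0 := t.1.2
      rw [mulP_apply] at h1 ⊢
      exact h1⟩
  invFun s := ⟨⟨s.1.1, by
      rw [LinearMap.mem_ker]
      have h1 : mulP R p (ePart E Q) s.1 = 0 := s.2
      rw [mulP_apply] at h1 ⊢
      exact congrArg Subtype.val h1⟩, by
      refine mem_ePart.2 ⟨⟨s.1.1, ?_⟩, ?_⟩
      · rw [LinearMap.mem_ker]
        have h1 : mulP R p (ePart E Q) s.1 = 0 := s.2
        rw [mulP_apply] at h1 ⊢
        exact congrArg Subtype.val h1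
      · apply Subtype.ext
        exact smul_eq_self hE s.1.2⟩
  left_inv _ := rfl
  right_inv _ := rfl

theorem injective_modPMap (p : ℕ) (E : R) (Q : Type*) [AddCommGroup Q] [Module R Q]
    (hE : ∀ x : Q, E • E • x = E • x) :
    Function.Injective (modPMap p (ePart E Q).subtype) := by
  rw [← LinearMap.ker_eq_bot, LinearMap.ker_eq_bot']
  intro m hm
  obtain ⟨x, rfl⟩ := Submodule.Quotient.mk_surjective _ m
  rw [modPMap_mk, Submodule.Quotient.mk_eq_zero] at hm
  obtain ⟨y, hy⟩ := hm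
  rw [mulP_apply] at hy
  rw [Submodule.Quotient.mk_eq_zero]
  refine ⟨⟨E • y, mem_ePart.2 ⟨y, rfl⟩⟩, ?_⟩
  rw [mulP_apply]
  apply Subtype.ext
  have h1 : E • (x : Q) = x := smul_eq_self hE x.2
  have h2 : ((ePart E Q).subtype x : Q) = x := rfl
  rw [h2] at hy
  show p • (E • y) = (x : Q)
  rw [← h1, ← hy, smul_comm]

theorem range_modPMap (p : ℕ) (E : R) (Q : Type*) [AddCommGroup Q] [Module R Q] :
    LinearMap.range (modPMap p (ePart E Q).subtype) = ePart E (ModP R p Q) := by
  apply le_antisymm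
  · rintro _ ⟨m, rfl⟩
    obtain ⟨x, rfl⟩ := Submodule.Quotient.mk_surjective _ m
    obtain ⟨y, hy⟩ := mem_ePart.1 x.2
    rw [modPMap_mk]
    refine mem_ePart.2 ⟨Submodule.Quotient.mk y, ?_⟩
    rw [← Submodule.Quotient.mk_smul, hy]
    rfl
  · intro m hm
    obtain ⟨m', rfl⟩ := mem_ePart.1 hm
    obtain ⟨y, rfl⟩ := Submodule.Quotient.mk_surjective _ m'
    exact ⟨Submodule.Quotient.mk ⟨E • y, mem_ePart.2 ⟨y, rfl⟩⟩, rfl⟩

end FinCore

theorem ck_eq_cq_of_idem (p : ℕ) (E : R) (Q : Type*) [AddCommGroup Q] [Module R Q] [Finite Q]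
    (hE : ∀ x : Q, E • E • x = E • x) : ck p E Q = cq p E Q := by
  rw [ck, cq, Nat.card_congr (FinCore.torEquiv p E Q hE),
    FinCore.card_ker_eq_card_quot (mulP R p (ePart E Q)), ← FinCore.range_modPMap p E Q]
  exact Nat.card_congr
    (LinearEquiv.ofInjective _ (FinCore.injective_modPMap p E Q hE)).toEquiv

end Fermat.Agent.S56.EC.Lat
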