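/-
S56 / EC-LAT, task LAT-2 (sub-architect helper283).
Helper lemmas: this file, namespace `Fermat.Agent.S56.EC.Lat.Lift`.

Lifting idempotents.  Induction on `k`; `k = 0`: `e' = e`.  Step: `e'' = 3 e'^2 - 2 e'^3`; with `f = e'^2 - e'`:
`e'' - e' = -(2 e' - 1) f` and `e''^2 - e'' = f^2 (4 f - 3)` (`ring`); if `f = p^k r + z t` (`k ≥ 1`; for the step
`0 → 1` use `he` directly with `e' = e`) then `f^2 ∈ (p^(2k), z) ⊆ (p^(k+1), z)`, and `f ∈ (p, z)`.
`ePart_eq_of_sub`: on a module killed by `p` and `z`, `e' • x = e • x`.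
-/
import Fermat.Agent.S56.EC.Lat.Defs

set_option autoImplicit false

namespace Fermat.Agent.S56.EC.Lat

variable {R : Type*} [CommRing R] {p : ℕ} {z e : R}

namespace Lift

theorem exists_lift_idem_succ (he : IsIdemMod p z e) (k : ℕ) :
    ∃ e' r t s t' : R, e' * e' - e' = (p : R) ^ (k + 1) * r + z * t ∧
      e' - e = (p : R) * s + z * t' := by
  induction k with
  | zero =>
    obtain ⟨r, s, h⟩ := he
    exact ⟨e, r, s, 0, 0, by rw [h]; ring, by ring⟩
  | succ k ih =>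
    obtain ⟨e', r, t, s, t', h1, h2⟩ := ih
    refine ⟨3 * e' ^ 2 - 2 * e' ^ 3,
      (p : R) ^ k * r ^ 2 * (4 * (e' * e' - e') - 3),
      (2 * (p : R) ^ (k + 1) * r * t + z * t ^ 2) * (4 * (e' * e' - e') - 3),
      s - (2 * e' - 1) * (p : R) ^ k * r, t' - (2 * e' - 1) * t, ?_, ?_⟩
    · have e1 : (3 * e' ^ 2 - 2 * e' ^ 3) * (3 * e' ^ 2 - 2 * e' ^ 3) - (3 * e' ^ 2 - 2 * e' ^ 3)
          = (e' * e' - e') ^ 2 * (4 * (e' * e' - e') - 3) := by ring
      have e2 : (e' * e' - e') ^ 2 = (p : R) ^ (k + 1 + 1) * ((p : R) ^ k * r ^ 2)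
          + z * (2 * (p : R) ^ (k + 1) * r * t + z * t ^ 2) := by
        rw [h1]
        ring
      rw [e1, e2]
      ring
    · have e1 : 3 * e' ^ 2 - 2 * e' ^ 3 - e = -(2 * e' - 1) * (e' * e' - e') + (e' - e) := by ring
      rw [e1, h1, h2]
      ring

end Lift

theorem exists_lift_idem (he : IsIdemMod p z e) (k : ℕ) :
    ∃ e' r t s t' : R, e' * e' - e' = (p : R) ^ k * r + z * t ∧ e' - e = (p : R) * s + z * t' := by
  cases k with
  | zero => exact ⟨e, e * e - e, 0, 0, 0, by ring, by ring⟩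
  | succ k => exact Lift.exists_lift_idem_succ he k

theorem ePart_eq_of_sub {e' s t : R} (h : e' - e = (p : R) * s + z * t) {W : Type*} [AddCommGroup W]
    [Module R W] (hW : KilledBy p W) (hz : ZKilled z W) : ePart e' W = ePart e W := by
  have key : ∀ x : W, e' • x = e • x := by
    intro x
    have h1 : e' = e + ((p : R) * s + z * t) := by rw [← h]; ring
    rw [h1, add_smul, add_smul, mul_smul, mul_smul, hz, Nat.cast_smul_eq_nsmul, hW, add_zero,
      add_zero]
  ext x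
  rw [mem_ePart, mem_ePart]
  constructor
  · rintro ⟨y, rfl⟩
    exact ⟨y, (key y).symm⟩
  · rintro ⟨y, rfl⟩
    exact ⟨y, key y⟩

end Fermat.Agent.S56.EC.Lat
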