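/-
S56 / EC-LAT, task LAT-4 (sub-architect helper283).
Helper lemmas: this file, namespace `Fermat.Agent.S56.EC.Lat.FinIdem`.

`Q` finite, killed by `z`.  There is `E : R`, `E ≡ e` modulo `(p, z)`, acting as an idempotent on `Q`.
Sketch.  `n := Nat.card Q = p ^ k * m`, `p ∤ m` (`Nat.exists_eq_pow_mul_and_not_dvd`), `n • x = 0` on `Q`
(`card_nsmul_eq_zero'`).  `e'` from `exists_lift_idem he (k + 1)`.  Bezout: `a p ^ (k + 1) + b m = 1`, `u := b m`.
`E := u * e'`.  `E * E - E = (u^2 - u) e' + u^2 (p^(k+1) r + z t)`; `n ∣ u^2 - u` and `n ∣ u^2 p^(k+1)`, so it kills `Q`.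
`E - e = (u - 1) e' + (e' - e) ∈ (p, z)`.
-/
import Fermat.Agent.S56.EC.Lat.Lift

set_option autoImplicit false

namespace Fermat.Agent.S56.EC.Lat

variable {R : Type*} [CommRing R] {p : ℕ} {z e : R}

namespace FinIdem

/-- An element of `(n, z)` kills a module killed by `n` and by `z`. -/
theorem smul_eq_zero_of_mem {Q : Type*} [AddCommGroup Q] [Module R Q] {n : ℕ}
    (hn : ∀ x : Q, n • x = 0) (hz : ZKilled z Q) {w c d : R} (hw : w = (n : R) * c + z * d) (x : Q) :
    w • x = 0 := by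
  rw [hw, add_smul, mul_smul, mul_smul, hz (d • x), Nat.cast_smul_eq_nsmul, hn (c • x), add_zero]

/-- Bezout for `p ^ j` and `m`, `p ∤ m`. -/
theorem exists_bezout (hp : p.Prime) {m : ℕ} (hm : ¬ p ∣ m) (j : ℕ) :
    ∃ a b : ℤ, a * (p : ℤ) ^ j + b * (m : ℤ) = 1 := by
  have hcop : Nat.Coprime (p ^ j) m := Nat.Coprime.pow_left j ((Nat.Prime.coprime_iff_not_dvd hp).2 hm)
  have h : IsCoprime ((p ^ j : ℕ) : ℤ) (m : ℤ) := Nat.isCoprime_iff_coprime.2 hcop
  obtain ⟨a, b, hab⟩ := h
  exact ⟨a, b, by simpa using hab⟩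

end FinIdem

theorem exists_idem_on (hp : p.Prime) (he : IsIdemMod p z e) (Q : Type*) [AddCommGroup Q] [Module R Q]
    [Finite Q] (hz : ZKilled z Q) :
    ∃ E s t : R, (∀ x : Q, E • E • x = E • x) ∧ E - e = (p : R) * s + z * t := by
  have hn0 : Nat.card Q ≠ 0 := Nat.card_pos.ne'
  obtain ⟨k, m, hm, hnk⟩ := Nat.exists_eq_pow_mul_and_not_dvd hn0 p hp.ne_one
  have hn : ∀ x : Q, (Nat.card Q) • x = 0 := fun x => card_nsmul_eq_zero'
  obtain ⟨e', r, t, s, t', h1, h2⟩ := exists_lift_idem (p := p) (z := z) (e := e) he (k + 1)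
  obtain ⟨a, b, hab⟩ := FinIdem.exists_bezout hp hm (k + 1)
  have habR : (a : R) * (p : R) ^ (k + 1) + (b : R) * (m : R) = 1 := by
    have := congrArg (Int.cast : ℤ → R) hab
    simpa using this
  have hnR : ((Nat.card Q : ℕ) : R) = (p : R) ^ k * (m : R) := by
    rw [hnk]; push_cast; ring
  have h1' : e' * e' = e' + ((p : R) ^ (k + 1) * r + z * t) := by
    rw [← h1]; ring
  have hu1 : (b : R) * (m : R) = 1 - (a : R) * (p : R) ^ (k + 1) := by
    rw [← habR]; ring
  refine ⟨(b : R) * (m : R) * e', -(a : R) * (p : R) ^ k * e' + s, t', ?_, ?_⟩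
  · intro x
    have key : ((b : R) * (m : R) * e') * ((b : R) * (m : R) * e') - (b : R) * (m : R) * e'
        = ((Nat.card Q : ℕ) : R) * (-(a : R) * (b : R) * (p : R) * e'
            + (b : R) * (b : R) * (m : R) * (p : R) * r)
          + z * ((b : R) * (m : R) * ((b : R) * (m : R)) * t) := by
      have e1 : ((b : R) * (m : R) * e') * ((b : R) * (m : R) * e') - (b : R) * (m : R) * e'
          = (b : R) * (m : R) * ((b : R) * (m : R)) * (e' * e') - (b : R) * (m : R) * e' := by ring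
      rw [e1, h1', hnR]
      have e2 : (b : R) * (m : R) * ((b : R) * (m : R)) * (e' + ((p : R) ^ (k + 1) * r + z * t))
            - (b : R) * (m : R) * e'
          = (b : R) * (m : R) * ((b : R) * (m : R) - 1) * e'
            + (b : R) * (m : R) * ((b : R) * (m : R)) * ((p : R) ^ (k + 1) * r + z * t) := by ring
      rw [e2]
      have e3 : (b : R) * (m : R) - 1 = - ((a : R) * (p : R) ^ (k + 1)) := by rw [hu1]; ring
      rw [e3]
      ring
    have h0 := FinIdem.smul_eq_zero_of_mem (z := z) hn hz key x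
    rw [sub_smul, mul_smul, sub_eq_zero] at h0
    exact h0
  · have : (b : R) * (m : R) * e' - e = ((b : R) * (m : R) - 1) * e' + (e' - e) := by ring
    rw [this, h2, hu1]
    ring

end Fermat.Agent.S56.EC.Lat
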