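/-
S56 / EC-LAT, task LAT-5 (sub-architect helper283).

`Q` finite ⟹ `# e (Q[p]) = # e (Q / p Q)`.  Assembly: `exists_idem_on`, `ck_eq_cq_of_idem`, and
`ePart_eq_of_sub` on `TorP R p Q`, `ModP R p Q` (`killedBy_torP`, `killedBy_modP`, `ZKilled.submodule`,
`ZKilled.quotient`); unfold `ck`, `cq`.
-/
import Fermat.Agent.S56.EC.Lat.Exact
import Fermat.Agent.S56.EC.Lat.FinCore
import Fermat.Agent.S56.EC.Lat.FinIdem

set_option autoImplicit false

namespace Fermat.Agent.S56.EC.Lat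

variable {R : Type*} [CommRing R] {p : ℕ} {z e : R}

theorem ck_eq_cq_of_finite (hp : p.Prime) (he : IsIdemMod p z e) (Q : Type*) [AddCommGroup Q]
    [Module R Q] [Finite Q] (hz : ZKilled z Q) : ck p e Q = cq p e Q := by
  obtain ⟨E, s, t, hE, hsub⟩ := exists_idem_on hp he Q hz
  have h1 := ck_eq_cq_of_idem p E Q hE
  unfold ck cq at h1 ⊢
  rw [ePart_eq_of_sub hsub (killedBy_torP R p Q) (hz.submodule _),
    ePart_eq_of_sub hsub (killedBy_modP R p Q) (hz.quotient _)] at h1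
  exact h1

end Fermat.Agent.S56.EC.Lat
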