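/-
S56 / EC-LAT, task LAT-10 (sub-architect helper283).  (proved by helper288, task 2799.)

**Chain lemma**: `f : L' → L` injective with finite cokernel, `L` without `p`-torsion ⟹ `cq L' = cq L`.
Assembly.  `g := modPMap p f`.  `card_ePart_ker_range` for `g`:  `cq L' = #e(ker g) * #e(range g)`.
`card_ePart_eq_mul` for `N = range g` in `ModP R p L`:  `cq L = #e(range g) * #e(coker g)`.
`#e(ker g) = ck Q` (`nonempty_ker_modPMap_equiv`, `card_ePart_congr`), `#e(coker g) = cq Q`
(`nonempty_coker_modPMap_equiv`), `ck Q = cq Q` (`ck_eq_cq_of_finite`).  `ZKilled z L'` follows from `hf`, `hz`.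
-/
import Fermat.Agent.S56.EC.Lat.Fin
import Fermat.Agent.S56.EC.Lat.ChainKer
import Fermat.Agent.S56.EC.Lat.ChainCoker

set_option autoImplicit false

namespace Fermat.Agent.S56.EC.Lat

variable {R : Type*} [CommRing R] {p : ℕ} {z e : R}

variable {L' L : Type*} [AddCommGroup L'] [Module R L'] [AddCommGroup L] [Module R L]

theorem cq_eq_of_injective (hp : p.Prime) (he : IsIdemMod p z e) (hz : ZKilled z L) (f : L' →ₗ[R] L)
    (hf : Function.Injective f) (htf : NoPTor p L) [Finite (L ⧸ LinearMap.range f)]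
    [Finite (ModP R p L')] [Finite (ModP R p L)] : cq p e L' = cq p e L := by
  have hz' : ZKilled z L' := fun x => hf (by rw [map_smul, hz, map_zero])
  have h1 := card_ePart_ker_range he (killedBy_modP R p L') (hz'.quotient _) (modPMap p f)
  have h2 := card_ePart_eq_mul he (killedBy_modP R p L) (hz.quotient _)
    (LinearMap.range (modPMap p f))
  obtain ⟨φ⟩ := nonempty_ker_modPMap_equiv f hf htf
  obtain ⟨ψ⟩ := nonempty_coker_modPMap_equiv p f
  have h3 := card_ePart_congr e φ
  have h4 := card_ePart_congr e ψ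
  have h5 := ck_eq_cq_of_finite hp he (L ⧸ LinearMap.range f) (hz.quotient _)
  unfold cq ck at *
  rw [h1, h2, h3, h4, h5, mul_comm]

end Fermat.Agent.S56.EC.Lat
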