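/-
S56 / EC-LAT, task LAT-7 (sub-architect helper283, proofs helper189).  Statements FROZEN.
Helper lemmas: this file, namespace `Fermat.Agent.S56.EC.Lat.Ext`.

`0 → A' → A → A'' → 0` exact, `A''` without `p`-torsion.  Then `0 → A'/p → A/p → A''/p → 0` is exact and
`A'[p] = A[p]`.
Sketch.  `cq`: apply `card_ePart_ker_range` to `g = modPMap p π : ModP R p A → ModP R p A''` (surjective, so
`range g = ⊤`, `Submodule.topEquiv`), and `ker g = range (modPMap p i)`, `modPMap p i` injective
(`LinearEquiv.ofInjective`): if `i a' = p a` then `p (π a) = 0`, `π a = 0`, `a = i b`, `a' = p b`; if `π a = p c`,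
`c = π d`, then `a - p d ∈ ker π = range i`.
`ck`: `i` restricts to a linear equivalence `TorP R p A' ≃ TorP R p A`; `card_ePart_congr`.
-/
import Fermat.Agent.S56.EC.Lat.Exact

set_option autoImplicit false

namespace Fermat.Agent.S56.EC.Lat

variable {R : Type*} [CommRing R] {p : ℕ} {z e : R}

variable {A' A A'' : Type*} [AddCommGroup A'] [Module R A'] [AddCommGroup A] [Module R A]
  [AddCommGroup A''] [Module R A'']

namespace Ext

theorem mem_range_of_smul_mem (i : A' →ₗ[R] A) (π : A →ₗ[R] A'')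
    (hex : LinearMap.range i = LinearMap.ker π) (htf : NoPTor p A'') {a : A}
    (h : π (p • a) = 0) : ∃ b, i b = a := by
  have h1 : a ∈ LinearMap.ker π := by
    rw [LinearMap.mem_ker]
    apply htf
    rw [← map_nsmul]
    exact h
  rw [← hex] at h1
  exact h1

theorem pi_comp (i : A' →ₗ[R] A) (π : A →ₗ[R] A'')
    (hex : LinearMap.range i = LinearMap.ker π) (b : A') : π (i b) = 0 := by
  have h1 : i b ∈ LinearMap.ker π := hex ▸ LinearMap.mem_range_self i b
  exact h1

theorem modPMap_injective (i : A' →ₗ[R] A) (π : A →ₗ[R] A'') (hi : Function.Injective i)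
    (hex : LinearMap.range i = LinearMap.ker π) (htf : NoPTor p A'') :
    Function.Injective (modPMap p i) := by
  rw [injective_iff_map_eq_zero]
  intro x hx
  obtain ⟨a', rfl⟩ := Submodule.Quotient.mk_surjective _ x
  rw [modPMap_mk, Submodule.Quotient.mk_eq_zero] at hx
  obtain ⟨a, ha⟩ := hx
  rw [mulP_apply] at ha
  obtain ⟨b, rfl⟩ := mem_range_of_smul_mem i π hex htf (a := a) (by rw [ha, pi_comp i π hex])
  rw [Submodule.Quotient.mk_eq_zero]
  refine ⟨b, hi ?_⟩
  rw [mulP_apply, map_nsmul, ha]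

theorem modPMap_surjective (π : A →ₗ[R] A'') (hπ : Function.Surjective π) :
    Function.Surjective (modPMap p π) := by
  intro x
  obtain ⟨c, rfl⟩ := Submodule.Quotient.mk_surjective _ x
  obtain ⟨a, rfl⟩ := hπ c
  exact ⟨Submodule.Quotient.mk a, modPMap_mk p π a⟩

theorem ker_modPMap (i : A' →ₗ[R] A) (π : A →ₗ[R] A'') (hπ : Function.Surjective π)
    (hex : LinearMap.range i = LinearMap.ker π) :
    LinearMap.ker (modPMap p π) = LinearMap.range (modPMap p i) := by
  ext x
  obtain ⟨a, rfl⟩ := Submodule.Quotient.mk_surjective _ x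
  rw [LinearMap.mem_ker, modPMap_mk, Submodule.Quotient.mk_eq_zero]
  constructor
  · rintro ⟨c, hc⟩
    obtain ⟨d, rfl⟩ := hπ c
    rw [mulP_apply] at hc
    have h1 : a - p • d ∈ LinearMap.ker π := by
      rw [LinearMap.mem_ker, map_sub, map_nsmul, hc, sub_self]
    rw [← hex] at h1
    obtain ⟨b, hb⟩ := h1
    refine ⟨Submodule.Quotient.mk b, ?_⟩
    rw [modPMap_mk, hb, Submodule.Quotient.eq]
    refine ⟨-d, ?_⟩
    rw [mulP_apply, smul_neg]
    abel
  · rintro ⟨y, hy⟩
    obtain ⟨b, rfl⟩ := Submodule.Quotient.mk_surjective _ y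
    rw [modPMap_mk, Submodule.Quotient.eq] at hy
    obtain ⟨d, hd⟩ := hy
    rw [mulP_apply] at hd
    refine ⟨-π d, ?_⟩
    have h2 : a = i b - p • d := by rw [hd]; abel
    rw [mulP_apply, h2, map_sub, pi_comp i π hex, map_nsmul, smul_neg, zero_sub]

/-- `i` restricted to the `p`-torsion -/
def torMap (p : ℕ) (i : A' →ₗ[R] A) : TorP R p A' →ₗ[R] TorP R p A :=
  i.restrict (fun x hx => by
    rw [LinearMap.mem_ker, mulP_apply] at hx ⊢
    rw [← map_nsmul, hx, map_zero])

theorem torMap_bijective (i : A' →ₗ[R] A) (π : A →ₗ[R] A'') (hi : Function.Injective i)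
    (hex : LinearMap.range i = LinearMap.ker π) (htf : NoPTor p A'') :
    Function.Bijective (torMap p i) := by
  constructor
  · intro x y hxy
    exact Subtype.ext (hi (congrArg Subtype.val hxy))
  · rintro ⟨a, ha⟩
    have ha' : p • a = 0 := by
      rw [LinearMap.mem_ker, mulP_apply] at ha
      exact ha
    obtain ⟨b, rfl⟩ := mem_range_of_smul_mem i π hex htf (a := a) (by rw [ha', map_zero])
    refine ⟨⟨b, ?_⟩, Subtype.ext rfl⟩
    rw [LinearMap.mem_ker, mulP_apply]
    apply hi
    rw [map_nsmul, ha', map_zero]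

end Ext

theorem cq_eq_mul_of_exact (he : IsIdemMod p z e) (hz : ZKilled z A) (i : A' →ₗ[R] A)
    (π : A →ₗ[R] A'') (hi : Function.Injective i) (hπ : Function.Surjective π)
    (hex : LinearMap.range i = LinearMap.ker π) (htf : NoPTor p A'') [Finite (ModP R p A)] :
    cq p e A = cq p e A' * cq p e A'' := by
  rw [cq, card_ePart_ker_range he (killedBy_modP R p A) (hz.quotient _) (modPMap p π)]
  congr 1
  · rw [cq]
    exact (card_ePart_congr e ((LinearEquiv.ofInjective (modPMap p i)
      (Ext.modPMap_injective i π hi hex htf)).trans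
        (LinearEquiv.ofEq _ _ (Ext.ker_modPMap i π hπ hex).symm))).symm
  · rw [cq]
    exact card_ePart_congr e ((LinearEquiv.ofEq _ _
      (LinearMap.range_eq_top.2 (Ext.modPMap_surjective π hπ))).trans Submodule.topEquiv)

theorem ck_eq_of_exact (e : R) (i : A' →ₗ[R] A) (π : A →ₗ[R] A'') (hi : Function.Injective i)
    (hex : LinearMap.range i = LinearMap.ker π) (htf : NoPTor p A'') :
    ck p e A = ck p e A' :=
  (card_ePart_congr e (LinearEquiv.ofBijective (Ext.torMap p i)
    (Ext.torMap_bijective i π hi hex htf))).symm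

end Fermat.Agent.S56.EC.Lat
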