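/-
S56 / EC-LAT, task LAT-18 (sub-architect helper283).
Helper lemmas: this file, namespace `Fermat.Agent.S56.EC.Lat.AbsS`.

`ord : E → ℤ[T]` with finite cokernel: `cq E = cq (ker ord) * cq ℤ[T]`, `ck E = ck (ker ord)`.
Sketch.  `D := range ord`.  `cq_eq_mul_of_exact he hz (ker ord).subtype ord.rangeRestrict ..` (`Submodule.range_subtype`,
`LinearMap.ker_rangeRestrict`, `LinearMap.surjective_rangeRestrict`), `NoPTor p D` from `noPTor_perm`;
`Finite (ModP ..)` from `finite_modP` (`Module.Finite ℤ D`: `Module.Finite.of_surjective` of the `ℤ`-linear map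
`ord.rangeRestrict.restrictScalars ℤ`; `Module.Finite ℤ (Pr ..)`: `finite_int_perm`).
`cq D = cq ℤ[T]`: `cq_eq_of_injective hp he (Pr.zKilled (permEnd_pow_eq_one hτ ℤ)) D.subtype ..`
(rewrite `Submodule.range_subtype` to get the finiteness of the cokernel from `hfin`).  `ck`: `ck_eq_of_exact`.
-/
import Fermat.Agent.S56.EC.Lat.Chain
import Fermat.Agent.S56.EC.Lat.Ext
import Fermat.Agent.S56.EC.Lat.PermCount

set_option autoImplicit false

namespace Fermat.Agent.S56.EC.Lat

open Polynomial

variable {p m : ℕ} {P : ℤ[X]} {E : Type*} [AddCommGroup E] [Module ℤ[X] E] {T : Type*}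

theorem sunit_count (hp : p.Prime) (he : IsIdemMod p ((X : ℤ[X]) ^ m - 1) P) [Module.Finite ℤ E]
    (hz : ZKilled ((X : ℤ[X]) ^ m - 1) E) [Finite T] (τ : Equiv.Perm T) (hτ : τ ^ m = 1)
    (ord : E →ₗ[ℤ[X]] Pr (permEnd τ ℤ)) (hfin : Finite (Pr (permEnd τ ℤ) ⧸ LinearMap.range ord)) :
    cq p P E = cq p P (LinearMap.ker ord) * cq p P (Pr (permEnd τ ℤ)) ∧
      ck p P E = ck p P (LinearMap.ker ord) := by
  have hp0 : p ≠ 0 := hp.ne_zero
  have htfZ : NoPTor p (Pr (permEnd τ ℤ)) := noPTor_perm hp0 τ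
  have htfD : NoPTor p (LinearMap.range ord) := by
    intro x hx
    apply Subtype.ext
    apply htfZ
    have h := congrArg Subtype.val hx
    simpa using h
  have hfinE : Finite (ModP ℤ[X] p E) := finite_modP ℤ[X] hp0 E
  have hi : Function.Injective (LinearMap.ker ord).subtype := Subtype.val_injective
  have hπ : Function.Surjective ord.rangeRestrict := LinearMap.surjective_rangeRestrict ord
  have hex : LinearMap.range (LinearMap.ker ord).subtype = LinearMap.ker ord.rangeRestrict := by
    rw [Submodule.range_subtype, LinearMap.ker_rangeRestrict]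
  have h1 := cq_eq_mul_of_exact he hz (LinearMap.ker ord).subtype ord.rangeRestrict hi hπ hex htfD
  have h2 : cq p P (LinearMap.range ord) = cq p P (Pr (permEnd τ ℤ)) := by
    have i1 : Module.Finite ℤ (Pr (permEnd τ ℤ)) := finite_int_perm τ
    have i2 : Module.Finite ℤ (LinearMap.range ord) :=
      Module.Finite.of_surjective (ord.rangeRestrict.restrictScalars ℤ) hπ
    have i3 : Finite (ModP ℤ[X] p (LinearMap.range ord)) := finite_modP ℤ[X] hp0 _
    have i4 : Finite (ModP ℤ[X] p (Pr (permEnd τ ℤ))) := finite_modP ℤ[X] hp0 _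
    have i5 : Finite (Pr (permEnd τ ℤ) ⧸ LinearMap.range (LinearMap.range ord).subtype) := by
      rw [Submodule.range_subtype]
      exact hfin
    exact cq_eq_of_injective hp he (Pr.zKilled (permEnd_pow_eq_one hτ ℤ))
      (LinearMap.range ord).subtype Subtype.val_injective htfZ
  exact ⟨by rw [h1, h2], ck_eq_of_exact P _ _ hi hex htfD⟩

end Fermat.Agent.S56.EC.Lat
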