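/-
S56 / EC-LAT, task LAT-22 (sub-architect helper283; proof helper107, task 2922).  Statements FROZEN.

**Abstract unit theorem** (assembly).  `N` from `exists_kerLog`, `Λ := U ⧸ N`, `Log'` from `exists_quotLog`.
`cq U = cq N * cq Λ` (`cq_eq_mul_of_exact he hz N.subtype N.mkQ ..`, `quot_noPTor`), `ck U = ck N` (`ck_eq_of_exact`),
`ck N = cq N` (`ck_eq_cq_of_finite`, `hz.submodule N`).  `exists_compare` for `Λ` (`quot_free`, `quot_finite`, `quot_finrank`,
`hz.quotient N`; the hypotheses on `Log'` follow from those on `Log` by `Submodule.Quotient.mk` surjectivity: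
`Submodule.Quotient.induction_on`/`Submodule.mkQ_surjective`, `Set.range Log' = Set.range Log`), then
`cq (Λ × Pr 1) = cq ℤ[W]` (`cq_eq_of_injective`, `noPTor_perm`, `finite_modP`) and `cq_prod`.
-/
import Fermat.Agent.S56.EC.Lat.AbsKer
import Fermat.Agent.S56.EC.Lat.AbsQuot
import Fermat.Agent.S56.EC.Lat.AbsCompare
import Fermat.Agent.S56.EC.Lat.Chain
import Fermat.Agent.S56.EC.Lat.Ext

set_option autoImplicit false

namespace Fermat.Agent.S56.EC.Lat

open Polynomial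

variable {p m : ℕ} {P : ℤ[X]} {U : Type*} [AddCommGroup U] [Module ℤ[X] U] {W : Type*} [Fintype W]

theorem unit_count (hp : p.Prime) (he : IsIdemMod p ((X : ℤ[X]) ^ m - 1) P) (hm : 0 < m)
    [Module.Finite ℤ U] (hz : ZKilled ((X : ℤ[X]) ^ m - 1) U) (τ : Equiv.Perm W) (hτ : τ ^ m = 1)
    (Log : U →+ (W → ℝ)) (hLog : ∀ u w, Log ((X : ℤ[X]) • u) w = Log u (τ.symm w))
    (hker : ∀ u, Log u = 0 → ∃ n : ℕ, n ≠ 0 ∧ n • u = 0)
    (hspan : ∀ x : W → ℝ, ∑ w, x w = 0 → x ∈ Submodule.span ℝ (Set.range Log))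
    (hrank : Module.finrank ℤ U + 1 = Fintype.card W) :
    cq p P U * cq p P (Pr (1 : Module.End ℤ ℤ)) = ck p P U * cq p P (Pr (permEnd τ ℤ)) := by
  have hp0 : p ≠ 0 := hp.ne_zero
  obtain ⟨N, hN, hNfin⟩ := exists_kerLog τ Log hLog hker
  obtain ⟨Log', -, hLog'⟩ := exists_quotLog N Log hN
  have hfinΛ : Module.Finite ℤ (U ⧸ N) := quot_finite N
  have hfreeΛ : Module.Free ℤ (U ⧸ N) := quot_free N Log hN
  have htf : NoPTor p (U ⧸ N) := quot_noPTor N Log hp0 hN
  have hrk : Module.finrank ℤ (U ⧸ N) = Module.finrank ℤ U := quot_finrank N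
  have hfU : Finite (ModP ℤ[X] p U) := finite_modP ℤ[X] hp0 U
  have hex : LinearMap.range N.subtype = LinearMap.ker N.mkQ := by
    rw [Submodule.range_subtype, Submodule.ker_mkQ]
  have h1 : cq p P U = cq p P N * cq p P (U ⧸ N) :=
    cq_eq_mul_of_exact he hz N.subtype N.mkQ N.injective_subtype N.mkQ_surjective hex htf
  have h2 : ck p P U = ck p P N :=
    ck_eq_of_exact P N.subtype N.mkQ N.injective_subtype hex htf
  have h3 : ck p P N = cq p P N := ck_eq_cq_of_finite hp he N (hz.submodule N)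
  have hrange : Set.range Log' = Set.range Log := by
    ext x
    constructor
    · rintro ⟨y, rfl⟩
      obtain ⟨u, rfl⟩ := Submodule.Quotient.mk_surjective N y
      exact ⟨u, (hLog' u).symm⟩
    · rintro ⟨u, rfl⟩
      exact ⟨Submodule.Quotient.mk u, hLog' u⟩
  obtain ⟨f, hf, hfin⟩ := exists_compare hm (hz.quotient N) τ hτ Log'
    (fun y w => by
      obtain ⟨u, rfl⟩ := Submodule.Quotient.mk_surjective N y
      rw [← Submodule.Quotient.mk_smul, hLog', hLog', hLog])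
    (fun x hx => by rw [hrange]; exact hspan x hx)
    (by rw [hrk]; exact hrank)
  have hfin1 : Module.Finite ℤ (Pr (1 : Module.End ℤ ℤ)) := inferInstanceAs (Module.Finite ℤ ℤ)
  have hfinW : Module.Finite ℤ (Pr (permEnd τ ℤ)) := finite_int_perm τ
  have hf1 : Finite (ModP ℤ[X] p ((U ⧸ N) × Pr (1 : Module.End ℤ ℤ))) := finite_modP ℤ[X] hp0 _
  have hf2 : Finite (ModP ℤ[X] p (Pr (permEnd τ ℤ))) := finite_modP ℤ[X] hp0 _
  have h4 : cq p P ((U ⧸ N) × Pr (1 : Module.End ℤ ℤ)) = cq p P (Pr (permEnd τ ℤ)) :=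
    cq_eq_of_injective hp he (Pr.zKilled (permEnd_pow_eq_one hτ ℤ)) f hf (noPTor_perm hp0 τ)
  rw [cq_prod] at h4
  rw [h1, h2, h3, mul_assoc, h4]

end Fermat.Agent.S56.EC.Lat
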