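/-
S56 / EC-LAT, task LAT-23 (sub-architect helper283).  STUB: statements FROZEN, replace every sorry.

**Abstract `S`-unit theorem** (assembly of `sunit_count` and `unit_count` applied to `U = ker ord`,
`Log ∘ (ker ord).subtype`; `Module.Finite ℤ (ker ord)`: submodule of a noetherian `ℤ`-module
(`Module.Finite ℤ ↥((ker ord).restrictScalars ℤ)`); `hz.submodule _`).
-/
import Fermat.Agent.S56.EC.Lat.AbsS
import Fermat.Agent.S56.EC.Lat.AbsU

set_option autoImplicit false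

namespace Fermat.Agent.S56.EC.Lat

open Polynomial

variable {p m : ℕ} {P : ℤ[X]} {E : Type*} [AddCommGroup E] [Module ℤ[X] E] {T W : Type*} [Finite T]
  [Fintype W]

theorem abs_unit (hp : p.Prime) (he : IsIdemMod p ((X : ℤ[X]) ^ m - 1) P) (hm : 0 < m)
    [Module.Finite ℤ E] (hz : ZKilled ((X : ℤ[X]) ^ m - 1) E)
    (τ : Equiv.Perm T) (hτ : τ ^ m = 1) (ord : E →ₗ[ℤ[X]] Pr (permEnd τ ℤ))
    (hfin : Finite (Pr (permEnd τ ℤ) ⧸ LinearMap.range ord))
    (σ : Equiv.Perm W) (hσ : σ ^ m = 1) (Log : E →+ (W → ℝ))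
    (hLog : ∀ u w, Log ((X : ℤ[X]) • u) w = Log u (σ.symm w))
    (hker : ∀ u, ord u = 0 → Log u = 0 → ∃ n : ℕ, n ≠ 0 ∧ n • u = 0)
    (hspan : ∀ x : W → ℝ, ∑ w, x w = 0 → x ∈ Submodule.span ℝ (Log '' {u | ord u = 0}))
    (hrank : Module.finrank ℤ (LinearMap.ker ord) + 1 = Fintype.card W) :
    cq p P E * cq p P (Pr (1 : Module.End ℤ ℤ)) =
      ck p P E * cq p P (Pr (permEnd τ ℤ)) * cq p P (Pr (permEnd σ ℤ)) := by
  obtain ⟨h1, h2⟩ := sunit_count hp he hz τ hτ ord hfin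
  haveI hnoeth : IsNoetherian ℤ E := isNoetherian_of_isNoetherianRing_of_finite ℤ E
  haveI hfinU : Module.Finite ℤ (LinearMap.ker ord) :=
    Module.Finite.of_fg (IsNoetherian.noetherian ((LinearMap.ker ord).restrictScalars ℤ))
  have h3 := unit_count (U := LinearMap.ker ord) hp he hm (hz.submodule _) σ hσ
    (Log.comp (LinearMap.ker ord).subtype.toAddMonoidHom)
    (fun u w => hLog u.1 w)
    (fun u hu => by
      obtain ⟨n, hn, hnu⟩ := hker u.1 u.2 hu
      exact ⟨n, hn, Subtype.ext hnu⟩)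
    (fun x hx => by
      have h4 : Log '' {u | ord u = 0}
          = Set.range (Log.comp (LinearMap.ker ord).subtype.toAddMonoidHom) := by
        ext y
        constructor
        · rintro ⟨u, hu, rfl⟩
          exact ⟨⟨u, hu⟩, rfl⟩
        · rintro ⟨u, rfl⟩
          exact ⟨u.1, u.2, rfl⟩
      rw [← h4]
      exact hspan x hx)
    hrank
  rw [h1, h2]
  calc cq p P (LinearMap.ker ord) * cq p P (Pr (permEnd τ ℤ)) * cq p P (Pr (1 : Module.End ℤ ℤ))
      = (cq p P (LinearMap.ker ord) * cq p P (Pr (1 : Module.End ℤ ℤ)))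
          * cq p P (Pr (permEnd τ ℤ)) := by ring
    _ = _ := by rw [h3]; ring

end Fermat.Agent.S56.EC.Lat
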